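import Mathlib
import Fermat.Prelude.Def_AlgebraicCurve_BaseChangeGalois

/-!
# Program TT (S33), abstract two-valuation integral layer, part 1: lattices

The content of `FF/IntRR.lean` (parts 1 and 3) with the target of the reduction a COMMUTATIVE
`k`-ALGEBRA `Rk` instead of a field (instance: `Rk × Rk` for the two Gauss valuations of
`X₀(pM)` at `p`).  Nothing in these proofs uses that `Rk` is a domain: only that `red : O → Rk`
is a ring homomorphism with kernel `𝔪_A · O` and that every nonzero `f` can be scaled into `O`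
with nonzero reduction.

* `TtbRed A O red` : the reduction axioms;
* `ttb_coeff_mem`, `ttb_linearIndependent` : the largest-coefficient trick;
* `ttbRedSub`, `TtbFull`, `ttb_full_of_le` (Theorem B), `ttb_exists_basis`;
* `ttb_echelon`, `ttb_echelon_unique` : reduced echelon form over a valuation ring;
* `ttbFix A ρ`, `ttb_fixed_coeff`, `ttb_struct_const`, `ttb_fixed_echelon`, `ttb_rows` : fixed
  coordinates, structure constants and charts over the fixed ring.
-/

set_option autoImplicit false
set_option linter.unusedSectionVars false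
set_option linter.unusedVariables false
set_option linter.style.haveILetI false

noncomputable section

namespace Fermat.Agent.TT

open AlgebraicCurve IsLocalRing Module

variable {K : Type*} [Field K] (A : ValuationSubring K)
variable {F : Type*} [Field F] [Algebra K F]
variable {Rk : Type*} [CommRing Rk] [Algebra (ResidueField A) Rk]

/-- the reduction axioms (O1)-(O3) for a subring `O ⊂ F` and `red : O → Rk`. -/
structure TtbRed (O : Subring F) (red : O →+* Rk) : Prop where
  const_mem : ∀ a : A, algebraMap K F (a : K) ∈ O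
  red_const : ∀ a : A, red ⟨algebraMap K F (a : K), const_mem a⟩ =
    algebraMap (ResidueField A) Rk (residue A a)
  ker : ∀ x : O, red x = 0 → ∃ π : A, π ∈ maximalIdeal A ∧ ∃ y : O,
    (x : F) = algebraMap K F (π : K) * (y : F)
  scale : ∀ f : F, f ≠ 0 → ∃ c : K, c ≠ 0 ∧ ∃ h : algebraMap K F c * f ∈ O,
    red ⟨algebraMap K F c * f, h⟩ ≠ 0

variable {A} {O : Subring F} {red : O →+* Rk}

/-- the constant `a ∈ A` as an element of `O`. -/
def ttbC (h : TtbRed A O red) (a : A) : O := ⟨algebraMap K F (a : K), h.const_mem a⟩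

theorem ttbC_coe (h : TtbRed A O red) (a : A) : ((ttbC h a : O) : F) = algebraMap K F (a : K) :=
  rfl

theorem ttb_red_C (h : TtbRed A O red) (a : A) :
    red (ttbC h a) = algebraMap (ResidueField A) Rk (residue A a) := h.red_const a

theorem ttb_red_C_mul (h : TtbRed A O red) (a : A) (x : O) :
    red (ttbC h a * x) = residue A a • red x := by
  rw [map_mul, ttb_red_C, Algebra.smul_def]

theorem ttb_red_sum (h : TtbRed A O red) {ι : Type*} (s : Finset ι) (c : ι → A) (x : ι → O) :
    red (∑ i ∈ s, ttbC h (c i) * x i) = ∑ i ∈ s, residue A (c i) • red (x i) := by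
  rw [map_sum]
  exact Finset.sum_congr rfl fun i _ => ttb_red_C_mul h (c i) (x i)

/-- **the largest-coefficient trick**: if the reductions of the `x i` are `k`-independent and
`∑ c i • x i ∈ O`, then all `c i ∈ A`. -/
theorem ttb_coeff_mem (h : TtbRed A O red) {ι : Type*} [Fintype ι] (x : ι → O)
    (hx : LinearIndependent (ResidueField A) fun i => red (x i)) (c : ι → K)
    (hc : ∑ i, c i • ((x i : O) : F) ∈ O) : ∀ i, c i ∈ A := by
  classical
  by_contra hne
  push Not at hne
  obtain ⟨i₀, hi₀⟩ := hne
  obtain ⟨j, -, hj⟩ := Finset.exists_max_image Finset.univ (fun i => A.valuation (c i))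
    ⟨i₀, Finset.mem_univ _⟩
  have hj1 : ¬ A.valuation (c j) ≤ 1 := fun hle =>
    hi₀ ((A.valuation_le_one_iff _).mp ((hj i₀ (Finset.mem_univ _)).trans hle))
  have hcj0 : c j ≠ 0 := by
    intro h0
    apply hj1
    rw [h0, map_zero]
    exact zero_le_one
  have hinv : A.valuation (c j)⁻¹ < 1 := by
    rw [map_inv₀]
    have hlt : 1 < A.valuation (c j) := not_le.mp hj1
    exact inv_lt_one_of_one_lt₀ hlt
  have hinvA : (c j)⁻¹ ∈ A := (A.valuation_le_one_iff _).mp hinv.le
  have hd : ∀ i, c i * (c j)⁻¹ ∈ A := by
    intro i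
    rw [← A.valuation_le_one_iff, map_mul, map_inv₀]
    have hv0 : A.valuation (c j) ≠ 0 := (Valuation.ne_zero_iff _).mpr hcj0
    rw [← div_eq_mul_inv, div_le_one₀ (lt_of_le_of_ne zero_le hv0.symm)]
    exact hj i (Finset.mem_univ _)
  -- the identity in `O`
  have hid : ∑ i, ttbC h ⟨c i * (c j)⁻¹, hd i⟩ * x i =
      ttbC h ⟨(c j)⁻¹, hinvA⟩ * ⟨∑ i, c i • ((x i : O) : F), hc⟩ := by
    apply Subtype.ext
    push_cast
    simp only [ttbC_coe]
    rw [Finset.mul_sum]
    refine Finset.sum_congr rfl fun i _ => ?_
    rw [Algebra.smul_def, map_mul]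
    ring
  have hred := congrArg red hid
  rw [ttb_red_sum, ttb_red_C_mul] at hred
  have hres0 : residue A ⟨(c j)⁻¹, hinvA⟩ = 0 := by
    rw [residue_eq_zero_iff, A.valuation_lt_one_iff]
    exact hinv
  rw [hres0, zero_smul] at hred
  have := Fintype.linearIndependent_iff.mp hx _ hred j
  have h1 : (⟨c j * (c j)⁻¹, hd j⟩ : A) = 1 := Subtype.ext (mul_inv_cancel₀ hcj0)
  rw [h1, map_one] at this
  exact one_ne_zero this

/-- scaling by the largest coefficient. -/
theorem ttb_exists_scale {ι : Type*} [Fintype ι] (c : ι → K) (hc : c ≠ 0) :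
    ∃ j, c j ≠ 0 ∧ ∀ i, c i * (c j)⁻¹ ∈ A := by
  classical
  obtain ⟨i₀, hi₀⟩ := Function.ne_iff.mp hc
  obtain ⟨j, -, hj⟩ := Finset.exists_max_image Finset.univ (fun i => A.valuation (c i))
    ⟨i₀, Finset.mem_univ _⟩
  have hcj0 : c j ≠ 0 := by
    intro h0
    have := hj i₀ (Finset.mem_univ _)
    rw [h0, map_zero] at this
    exact hi₀ ((Valuation.zero_iff _).mp (le_antisymm this zero_le))
  refine ⟨j, hcj0, fun i => ?_⟩
  rw [← A.valuation_le_one_iff, map_mul, map_inv₀]
  have hv0 : A.valuation (c j) ≠ 0 := (Valuation.ne_zero_iff _).mpr hcj0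
  rw [← div_eq_mul_inv, div_le_one₀ (lt_of_le_of_ne zero_le hv0.symm)]
  exact hj i (Finset.mem_univ _)

/-- a family of `O` with `k`-independent reductions is `K`-independent. -/
theorem ttb_linearIndependent (h : TtbRed A O red) {ι : Type*} [Fintype ι] (x : ι → O)
    (hx : LinearIndependent (ResidueField A) fun i => red (x i)) :
    LinearIndependent K fun i => ((x i : O) : F) := by
  classical
  rw [Fintype.linearIndependent_iff]
  intro c hc
  by_contra hne
  have hc0 : c ≠ 0 := fun h0 => hne fun i => by rw [h0]; rfl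
  obtain ⟨j, hcj0, hd⟩ := ttb_exists_scale (A := A) c hc0
  have hid : ∑ i, ttbC h ⟨c i * (c j)⁻¹, hd i⟩ * x i = 0 := by
    apply Subtype.ext
    push_cast
    simp only [ttbC_coe]
    have : ∑ i, algebraMap K F (c i * (c j)⁻¹) * ((x i : O) : F) =
        algebraMap K F (c j)⁻¹ * ∑ i, c i • ((x i : O) : F) := by
      rw [Finset.mul_sum]
      refine Finset.sum_congr rfl fun i _ => ?_
      rw [Algebra.smul_def, map_mul]
      ring
    rw [this, hc, mul_zero]
  have hred := congrArg red hid
  rw [ttb_red_sum, map_zero] at hred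
  have := Fintype.linearIndependent_iff.mp hx _ hred j
  have h1 : (⟨c j * (c j)⁻¹, hd j⟩ : A) = 1 := Subtype.ext (mul_inv_cancel₀ hcj0)
  rw [h1, map_one] at this
  exact one_ne_zero this

/-! ### The reduction of `V ∩ O` -/

/-- the reduction of `V ∩ O`, a `k`-subspace of `Rk`. -/
def ttbRedSub (h : TtbRed A O red) (V : Submodule K F) : Submodule (ResidueField A) Rk where
  carrier := {c | ∃ x : O, (x : F) ∈ V ∧ red x = c}
  zero_mem' := ⟨0, by simp, map_zero _⟩
  add_mem' := by
    rintro c c' ⟨x, hx, rfl⟩ ⟨x', hx', rfl⟩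
    exact ⟨x + x', by push_cast; exact V.add_mem hx hx', map_add _ _ _⟩
  smul_mem' := by
    rintro a c ⟨x, hx, rfl⟩
    obtain ⟨a', rfl⟩ := residue_surjective a
    refine ⟨ttbC h a' * x, ?_, ttb_red_C_mul h a' x⟩
    push_cast
    rw [ttbC_coe, ← Algebra.smul_def]
    exact V.smul_mem _ hx

theorem mem_ttbRedSub (h : TtbRed A O red) (V : Submodule K F) (c : Rk) :
    c ∈ ttbRedSub h V ↔ ∃ x : O, (x : F) ∈ V ∧ red x = c := Iff.rfl

theorem ttbRedSub_mono (h : TtbRed A O red) {V W : Submodule K F} (hWV : W ≤ V) :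
    ttbRedSub h W ≤ ttbRedSub h V := by
  rintro c ⟨x, hx, rfl⟩
  exact ⟨x, hWV hx, rfl⟩

/-- lifting a finite family of `ttbRedSub h V`. -/
theorem ttb_exists_lift (h : TtbRed A O red) (V : Submodule K F) {ι : Type*}
    (e : ι → Rk) (he : ∀ i, e i ∈ ttbRedSub h V) :
    ∃ x : ι → O, (∀ i, ((x i : O) : F) ∈ V) ∧ ∀ i, red (x i) = e i := by
  choose x hx using he
  exact ⟨x, fun i => (hx i).1, fun i => (hx i).2⟩

/-- upper bound : `dim_k red(V ∩ O) ≤ dim_K V`. -/
theorem ttb_redSub_finite (h : TtbRed A O red) (V : Submodule K F) [FiniteDimensional K V] :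
    FiniteDimensional (ResidueField A) (ttbRedSub h V) ∧
      finrank (ResidueField A) (ttbRedSub h V) ≤ finrank K V := by
  classical
  have hrank : Module.rank (ResidueField A) (ttbRedSub h V) ≤ (finrank K V : ℕ) := by
    apply rank_le
    intro s hs
    -- lift the elements of `s`
    obtain ⟨x, hxV, hxr⟩ := ttb_exists_lift h V (fun i : s => ((i : ttbRedSub h V) : Rk))
      (fun i => (i : ttbRedSub h V).2)
    have hind : LinearIndependent (ResidueField A) fun i : s => red (x i) := by
      have h1 : LinearIndependent (ResidueField A)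
          fun i : s => ((i : ttbRedSub h V) : Rk) :=
        hs.map' (ttbRedSub h V).subtype (Submodule.ker_subtype _)
      have h2 : (fun i : s => red (x i)) = fun i : s => ((i : ttbRedSub h V) : Rk) :=
        funext hxr
      rw [h2]; exact h1
    have hK := ttb_linearIndependent h x hind
    have hK' : LinearIndependent K fun i : s => (⟨((x i : O) : F), hxV i⟩ : V) := by
      apply LinearIndependent.of_comp V.subtype
      exact hK
    have := hK'.fintype_card_le_finrank
    simpa using this
  have hfin : FiniteDimensional (ResidueField A) (ttbRedSub h V) := by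
    rw [FiniteDimensional, ← Module.rank_lt_aleph0_iff]
    exact lt_of_le_of_lt hrank (Cardinal.natCast_lt_aleph0)
  refine ⟨hfin, ?_⟩
  rw [← finrank_eq_rank (ResidueField A) (ttbRedSub h V)] at hrank
  exact_mod_cast hrank

/-! ### Coordinates w.r.t. a family with independent reductions -/

/-- `∑ c i • b i ∈ O ↔ all c i ∈ A`. -/
theorem ttb_coord_mem_iff (h : TtbRed A O red) {ι : Type*} [Fintype ι] (b : ι → O)
    (hb : LinearIndependent (ResidueField A) fun i => red (b i)) (c : ι → K) :
    ∑ i, c i • ((b i : O) : F) ∈ O ↔ ∀ i, c i ∈ A := by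
  refine ⟨ttb_coeff_mem h b hb c, fun hc => ?_⟩
  refine O.sum_mem fun i _ => ?_
  rw [Algebra.smul_def]
  exact O.mul_mem (h.const_mem ⟨c i, hc i⟩) (b i).2

/-- the reduction in coordinates. -/
theorem ttb_coord_red (h : TtbRed A O red) {ι : Type*} [Fintype ι] (b : ι → O) (c : ι → A)
    (hmem : ∑ i, ((c i : A) : K) • ((b i : O) : F) ∈ O) :
    red ⟨∑ i, ((c i : A) : K) • ((b i : O) : F), hmem⟩ = ∑ i, residue A (c i) • red (b i) := by
  rw [← ttb_red_sum h Finset.univ c b]
  congr 1
  apply Subtype.ext
  rw [AddSubmonoidClass.coe_finsetSum]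
  refine Finset.sum_congr rfl fun i _ => ?_
  rw [Subring.coe_mul, ttbC_coe, Algebra.smul_def]

/-- the reduction of `W ∩ O` in coordinates: `W ≤ span b`. -/
theorem ttb_mem_redSub_iff (h : TtbRed A O red) {ι : Type*} [Fintype ι] (b : ι → O)
    (hb : LinearIndependent (ResidueField A) fun i => red (b i)) (W : Submodule K F)
    (hW : W ≤ Submodule.span K (Set.range fun i => ((b i : O) : F))) (y : Rk) :
    y ∈ ttbRedSub h W ↔ ∃ c : ι → A, ∑ i, ((c i : A) : K) • ((b i : O) : F) ∈ W ∧
      y = ∑ i, residue A (c i) • red (b i) := by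
  constructor
  · rintro ⟨x, hxW, rfl⟩
    obtain ⟨c, hc⟩ := (Submodule.mem_span_range_iff_exists_fun K).mp (hW hxW)
    have hmem := ttb_coeff_mem h b hb c (by rw [hc]; exact x.2)
    refine ⟨fun i => ⟨c i, hmem i⟩, by rw [hc]; exact hxW, ?_⟩
    have hO : ∑ i, c i • ((b i : O) : F) ∈ O := by rw [hc]; exact x.2
    have : x = ⟨∑ i, c i • ((b i : O) : F), hO⟩ := Subtype.ext hc.symm
    rw [this]
    exact ttb_coord_red h b (fun i => ⟨c i, hmem i⟩) hO
  · rintro ⟨c, hcW, rfl⟩
    have hO : ∑ i, ((c i : A) : K) • ((b i : O) : F) ∈ O :=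
      (ttb_coord_mem_iff h b hb _).mpr fun i => (c i).2
    exact ⟨⟨_, hO⟩, hcW, ttb_coord_red h b c hO⟩

/-! ### Full lattices -/

/-- `V ∩ O` reduces onto a `k`-space of full dimension `dim_K V`. -/
def TtbFull (h : TtbRed A O red) (V : Submodule K F) : Prop :=
  FiniteDimensional K V ∧ finrank K V ≤ finrank (ResidueField A) (ttbRedSub h V)

theorem ttb_full_finrank (h : TtbRed A O red) {V : Submodule K F} (hV : TtbFull h V) :
    finrank (ResidueField A) (ttbRedSub h V) = finrank K V := by
  haveI := hV.1
  exact le_antisymm (ttb_redSub_finite h V).2 hV.2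

/-- **Theorem B** : fullness is inherited by every `K`-subspace: for `W ≤ V` the reduction of
`W ∩ O` has dimension `dim_K W`. -/
theorem ttb_full_of_le (h : TtbRed A O red) {V W : Submodule K F} (hV : TtbFull h V)
    (hWV : W ≤ V) : TtbFull h W := by
  classical
  obtain ⟨hfV, hle⟩ := hV
  haveI := hfV
  haveI hfW : FiniteDimensional K W := Submodule.finiteDimensional_of_le hWV
  refine ⟨hfW, ?_⟩
  obtain ⟨hfR, hRle⟩ := ttb_redSub_finite h V
  obtain ⟨hfRW, hRWle⟩ := ttb_redSub_finite h W
  haveI := hfR
  haveI := hfRW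
  by_contra hlt
  push Not at hlt
  have hRWR : ttbRedSub h W ≤ ttbRedSub h V := ttbRedSub_mono h hWV
  -- a complement of `red(W ∩ O)` in `red(V ∩ O)`
  obtain ⟨C', hC'⟩ := Submodule.exists_isCompl (ttbRedSub h W)
  set Cc : Submodule (ResidueField A) Rk := C' ⊓ ttbRedSub h V with hCc
  have hCcR : Cc ≤ ttbRedSub h V := inf_le_right
  haveI hfC : FiniteDimensional (ResidueField A) Cc := Submodule.finiteDimensional_of_le hCcR
  have hdisj : Cc ⊓ ttbRedSub h W = ⊥ := by
    rw [eq_bot_iff]
    calc Cc ⊓ ttbRedSub h W ≤ C' ⊓ ttbRedSub h W := inf_le_inf_right _ inf_le_left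
      _ = ⊥ := by rw [inf_comm]; exact hC'.inf_eq_bot
  have hsup : Cc ⊔ ttbRedSub h W = ttbRedSub h V := by
    rw [hCc, sup_comm, ← sup_inf_assoc_of_le C' hRWR, hC'.sup_eq_top, top_inf_eq]
  have hdim : finrank (ResidueField A) Cc + finrank (ResidueField A) (ttbRedSub h W) =
      finrank (ResidueField A) (ttbRedSub h V) := by
    have := Submodule.finrank_sup_add_finrank_inf_eq Cc (ttbRedSub h W)
    rw [hsup, hdisj, finrank_bot, add_zero] at this
    exact this.symm
  -- lift a basis of the complement
  let bC := Module.finBasis (ResidueField A) Cc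
  obtain ⟨x, hxV, hxr⟩ := ttb_exists_lift h V (fun i => ((bC i : Cc) : Rk))
    (fun i => hCcR (bC i).2)
  have hind : LinearIndependent (ResidueField A) fun i => red (x i) := by
    have h1 : LinearIndependent (ResidueField A) fun i => ((bC i : Cc) : Rk) :=
      bC.linearIndependent.map' Cc.subtype (Submodule.ker_subtype _)
    have h2 : (fun i => red (x i)) = fun i => ((bC i : Cc) : Rk) := funext hxr
    rw [h2]; exact h1
  have hK := ttb_linearIndependent h x hind
  set U : Submodule K F := Submodule.span K (Set.range fun i => ((x i : O) : F)) with hU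
  have hUV : U ≤ V := Submodule.span_le.mpr (by rintro _ ⟨i, rfl⟩; exact hxV i)
  haveI hfU : FiniteDimensional K U := Submodule.finiteDimensional_of_le hUV
  have hdimU : finrank K U = finrank (ResidueField A) Cc := by
    rw [hU, finrank_span_eq_card hK, Fintype.card_fin]
  have hcount := Submodule.finrank_sup_add_finrank_inf_eq W U
  have hsupV : finrank K (W ⊔ U : Submodule K F) ≤ finrank K V :=
    Submodule.finrank_mono (sup_le hWV hUV)
  have hpos : 0 < finrank K (W ⊓ U : Submodule K F) := by omega
  have hne : (W ⊓ U : Submodule K F) ≠ ⊥ := by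
    intro h0
    rw [h0, finrank_bot] at hpos
    exact lt_irrefl _ hpos
  obtain ⟨w, hw, hw0⟩ := Submodule.exists_mem_ne_zero_of_ne_bot hne
  obtain ⟨hwW, hwU⟩ := Submodule.mem_inf.mp hw
  obtain ⟨c, hc⟩ := (Submodule.mem_span_range_iff_exists_fun K).mp hwU
  have hc0 : c ≠ 0 := by
    rintro rfl
    apply hw0
    rw [← hc]
    simp
  obtain ⟨j, hcj0, hd⟩ := ttb_exists_scale (A := A) c hc0
  set w' : O := ∑ i, ttbC h ⟨c i * (c j)⁻¹, hd i⟩ * x i with hw'
  have hw'F : ((w' : O) : F) = algebraMap K F (c j)⁻¹ * w := by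
    rw [hw', ← hc, Finset.mul_sum, AddSubmonoidClass.coe_finsetSum]
    refine Finset.sum_congr rfl fun i _ => ?_
    rw [Subring.coe_mul, ttbC_coe, Algebra.smul_def, map_mul]
    ring
  have hw'W : ((w' : O) : F) ∈ W := by
    rw [hw'F, ← Algebra.smul_def]
    exact W.smul_mem _ hwW
  have hredw' : red w' = ∑ i, residue A ⟨c i * (c j)⁻¹, hd i⟩ • red (x i) := by
    rw [hw', ttb_red_sum]
  have hmemC : red w' ∈ Cc := by
    rw [hredw']
    refine Submodule.sum_mem _ fun i _ => Submodule.smul_mem _ _ ?_
    rw [hxr i]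
    exact (bC i).2
  have hmemW : red w' ∈ ttbRedSub h W := ⟨w', hw'W, rfl⟩
  have hzero : red w' = 0 := by
    have : red w' ∈ Cc ⊓ ttbRedSub h W := Submodule.mem_inf.mpr ⟨hmemC, hmemW⟩
    rw [hdisj] at this
    exact (Submodule.mem_bot _).mp this
  rw [hredw'] at hzero
  have := Fintype.linearIndependent_iff.mp hind _ hzero j
  have h1 : (⟨c j * (c j)⁻¹, hd j⟩ : A) = 1 := Subtype.ext (mul_inv_cancel₀ hcj0)
  rw [h1, map_one] at this
  exact one_ne_zero this

/-- a full lattice has a basis reducing to a basis; the lifts may be chosen inside any class `P`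
of elements in which every element of the reduction has a lift. -/
theorem ttb_exists_basis' (h : TtbRed A O red) {V : Submodule K F} (hV : TtbFull h V)
    (P : O → Prop)
    (hP : ∀ c ∈ ttbRedSub h V, ∃ x : O, (x : F) ∈ V ∧ red x = c ∧ P x) :
    ∃ b : Fin (finrank K V) → O, (∀ i, ((b i : O) : F) ∈ V) ∧ (∀ i, P (b i)) ∧
      LinearIndependent (ResidueField A) (fun i => red (b i)) ∧
      Submodule.span (ResidueField A) (Set.range fun i => red (b i)) = ttbRedSub h V ∧
      LinearIndependent K (fun i => ((b i : O) : F)) ∧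
      Submodule.span K (Set.range fun i => ((b i : O) : F)) = V := by
  classical
  haveI := hV.1
  obtain ⟨hfR, -⟩ := ttb_redSub_finite h V
  haveI := hfR
  have heq := ttb_full_finrank h hV
  let bR := (Module.finBasis (ResidueField A) (ttbRedSub h V)).reindex (finCongr heq)
  choose x hxV hxr hxP using fun i => hP ((bR i : ttbRedSub h V) : Rk) (bR i).2
  have h2 : (fun i => red (x i)) = fun i => ((bR i : ttbRedSub h V) : Rk) := funext hxr
  have hind : LinearIndependent (ResidueField A) fun i => red (x i) := by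
    rw [h2]
    exact bR.linearIndependent.map' (ttbRedSub h V).subtype (Submodule.ker_subtype _)
  have hK := ttb_linearIndependent h x hind
  refine ⟨x, hxV, hxP, hind, ?_, hK, ?_⟩
  · rw [h2]
    have : (fun i => ((bR i : ttbRedSub h V) : Rk)) = (ttbRedSub h V).subtype ∘ bR := rfl
    rw [this, Set.range_comp, ← Submodule.map_span, bR.span_eq, Submodule.map_subtype_top]
  · have hle : Submodule.span K (Set.range fun i => ((x i : O) : F)) ≤ V :=
      Submodule.span_le.mpr (by rintro _ ⟨i, rfl⟩; exact hxV i)
    apply Submodule.eq_of_le_of_finrank_eq hle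
    rw [finrank_span_eq_card hK, Fintype.card_fin]

/-- a full lattice has a basis reducing to a basis. -/
theorem ttb_exists_basis (h : TtbRed A O red) {V : Submodule K F} (hV : TtbFull h V) :
    ∃ b : Fin (finrank K V) → O, (∀ i, ((b i : O) : F) ∈ V) ∧
      LinearIndependent (ResidueField A) (fun i => red (b i)) ∧
      Submodule.span (ResidueField A) (Set.range fun i => red (b i)) = ttbRedSub h V ∧
      LinearIndependent K (fun i => ((b i : O) : F)) ∧
      Submodule.span K (Set.range fun i => ((b i : O) : F)) = V := by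
  obtain ⟨b, h1, -, h2, h3, h4, h5⟩ := ttb_exists_basis' h hV (fun _ => True)
    (fun c ⟨x, hx, hxc⟩ => ⟨x, hx, hxc, trivial⟩)
  exact ⟨b, h1, h2, h3, h4, h5⟩

/-- integrality of the coordinates w.r.t. a family with independent reductions. -/
theorem ttb_basis_coeff (h : TtbRed A O red) {ι : Type*} [Fintype ι] (b : ι → O)
    (hb : LinearIndependent (ResidueField A) fun i => red (b i)) (x : O)
    (hx : (x : F) ∈ Submodule.span K (Set.range fun i => ((b i : O) : F))) :
    ∃ c : ι → A, x = ∑ i, ttbC h (c i) * b i := by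
  obtain ⟨c, hc⟩ := (Submodule.mem_span_range_iff_exists_fun K).mp hx
  have hmem := ttb_coeff_mem h b hb c (by rw [hc]; exact x.2)
  refine ⟨fun i => ⟨c i, hmem i⟩, Subtype.ext ?_⟩
  push_cast
  simp only [ttbC_coe]
  rw [← hc]
  exact Finset.sum_congr rfl fun i _ => Algebra.smul_def _ _

/-! ### Reduced echelon form over a valuation ring (pure linear algebra) -/

/-- **reduced echelon form with pivots of largest absolute value** : every subspace `W` of `K^n`
is spanned by vectors `w i` with entries in `A` and `w i (J a) = δ_{a i}`. -/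
theorem ttb_echelon (A : ValuationSubring K) (n : ℕ) :
    ∀ (d : ℕ) (W : Submodule K (Fin n → K)), finrank K W = d →
      ∃ (s : ℕ) (J : Fin s → Fin n) (w : Fin s → Fin n → K),
        (∀ i j, w i j ∈ A) ∧ (∀ i a, w i (J a) = if a = i then 1 else 0) ∧
        Submodule.span K (Set.range w) = W := by
  classical
  intro d
  induction d using Nat.strong_induction_on with
  | _ d ih =>
    intro W hW
    by_cases hbot : W = ⊥
    · refine ⟨0, Fin.elim0, Fin.elim0, fun i => i.elim0, fun i => i.elim0, ?_⟩
      rw [hbot, Submodule.span_eq_bot]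
      rintro _ ⟨i, -⟩
      exact i.elim0
    · obtain ⟨v, hvW, hv0⟩ := Submodule.exists_mem_ne_zero_of_ne_bot hbot
      obtain ⟨j, hvj, hvA⟩ := ttb_exists_scale (A := A) v hv0
      set u : Fin n → K := (v j)⁻¹ • v with hu
      have huW : u ∈ W := W.smul_mem _ hvW
      have huj : u j = 1 := by
        rw [hu, Pi.smul_apply, smul_eq_mul, inv_mul_cancel₀ hvj]
      have huA : ∀ i, u i ∈ A := fun i => by
        rw [hu, Pi.smul_apply, smul_eq_mul, mul_comm]
        exact hvA i
      set W₁ : Submodule K (Fin n → K) := W ⊓ LinearMap.ker (LinearMap.proj j) with hW₁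
      have hW₁W : W₁ ≤ W := inf_le_left
      have hW₁j : ∀ x ∈ W₁, x j = 0 := fun x hx => by
        have := (Submodule.mem_inf.mp hx).2
        simpa using this
      have hlt : W₁ < W := by
        refine lt_of_le_of_ne hW₁W fun heq => ?_
        have := hW₁j u (heq ▸ huW)
        rw [huj] at this
        exact one_ne_zero this
      have hdlt : finrank K W₁ < d := hW ▸ Submodule.finrank_lt_finrank_of_lt hlt
      obtain ⟨s, J₁, w', hwA, hδ, hspan⟩ := ih _ hdlt W₁ rfl
      have hw'W₁ : ∀ a, w' a ∈ W₁ := fun a => hspan ▸ Submodule.subset_span ⟨a, rfl⟩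
      set w₀ : Fin n → K := u - ∑ a, u (J₁ a) • w' a with hw₀
      have hw₀W : w₀ ∈ W :=
        W.sub_mem huW (W.sum_mem fun a _ => W.smul_mem _ (hW₁W (hw'W₁ a)))
      refine ⟨s + 1, Fin.cons j J₁, Fin.cons w₀ w', ?_, ?_, ?_⟩
      · intro i l
        refine Fin.cases ?_ (fun i' => ?_) i
        · rw [Fin.cons_zero, hw₀, Pi.sub_apply, Finset.sum_apply]
          refine A.toSubring.sub_mem (huA l) (A.toSubring.sum_mem fun a _ => ?_)
          rw [Pi.smul_apply, smul_eq_mul]
          exact A.toSubring.mul_mem (huA _) (hwA a l)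
        · rw [Fin.cons_succ]
          exact hwA i' l
      · intro i a
        refine Fin.cases ?_ (fun i' => ?_) i
        · refine Fin.cases ?_ (fun a' => ?_) a
          · rw [Fin.cons_zero, Fin.cons_zero, if_pos rfl, hw₀, Pi.sub_apply, Finset.sum_apply, huj]
            have : ∑ a, (u (J₁ a) • w' a) j = 0 :=
              Finset.sum_eq_zero fun a _ => by
                rw [Pi.smul_apply, hW₁j _ (hw'W₁ a), smul_zero]
            rw [this, sub_zero]
          · rw [Fin.cons_zero, Fin.cons_succ, if_neg (Fin.succ_ne_zero a'), hw₀, Pi.sub_apply,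
              Finset.sum_apply]
            have : ∑ b, (u (J₁ b) • w' b) (J₁ a') = u (J₁ a') := by
              rw [Finset.sum_eq_single a']
              · rw [Pi.smul_apply, hδ a' a', if_pos rfl, smul_eq_mul, mul_one]
              · intro b _ hb
                rw [Pi.smul_apply, hδ b a', if_neg (Ne.symm hb), smul_zero]
              · intro hnot
                exact absurd (Finset.mem_univ _) hnot
            rw [this, sub_self]
        · refine Fin.cases ?_ (fun a' => ?_) a
          · rw [Fin.cons_succ, Fin.cons_zero, if_neg (Fin.succ_ne_zero i').symm]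
            exact hW₁j _ (hw'W₁ i')
          · rw [Fin.cons_succ, Fin.cons_succ, hδ i' a']
            simp only [Fin.succ_inj]
      · apply le_antisymm
        · rw [Submodule.span_le]
          rintro _ ⟨i, rfl⟩
          refine Fin.cases ?_ (fun i' => ?_) i
          · rw [Fin.cons_zero]; exact hw₀W
          · rw [Fin.cons_succ]; exact hW₁W (hw'W₁ i')
        · intro x hx
          have hw'span : ∀ a, w' a ∈ Submodule.span K (Set.range (Fin.cons w₀ w' :
              Fin (s + 1) → Fin n → K)) := fun a =>
            Submodule.subset_span ⟨a.succ, by rw [Fin.cons_succ]⟩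
          have hw₀span : w₀ ∈ Submodule.span K (Set.range (Fin.cons w₀ w' :
              Fin (s + 1) → Fin n → K)) :=
            Submodule.subset_span ⟨0, by rw [Fin.cons_zero]⟩
          have huspan : u ∈ Submodule.span K (Set.range (Fin.cons w₀ w' :
              Fin (s + 1) → Fin n → K)) := by
            have : u = w₀ + ∑ a, u (J₁ a) • w' a := by rw [hw₀]; abel
            rw [this]
            exact Submodule.add_mem _ hw₀span
              (Submodule.sum_mem _ fun a _ => Submodule.smul_mem _ _ (hw'span a))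
          have hx₁ : x - x j • u ∈ W₁ := by
            refine Submodule.mem_inf.mpr ⟨W.sub_mem hx (W.smul_mem _ huW), ?_⟩
            rw [LinearMap.mem_ker, LinearMap.proj_apply, Pi.sub_apply, Pi.smul_apply, huj,
              smul_eq_mul, mul_one, sub_self]
          have hx₁span : x - x j • u ∈ Submodule.span K (Set.range (Fin.cons w₀ w' :
              Fin (s + 1) → Fin n → K)) := by
            rw [← hspan] at hx₁
            refine Submodule.span_le.mpr ?_ hx₁
            rintro _ ⟨a, rfl⟩
            exact hw'span a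
          have : x = (x - x j • u) + x j • u := by abel
          rw [this]
          exact Submodule.add_mem _ hx₁span (Submodule.smul_mem _ _ huspan)

/-- uniqueness of coordinates in a reduced echelon basis. -/
theorem ttb_echelon_unique {n s : ℕ} (J : Fin s → Fin n) (w : Fin s → Fin n → K)
    (hδ : ∀ i a, w i (J a) = if a = i then 1 else 0) (x : Fin n → K)
    (hx : x ∈ Submodule.span K (Set.range w)) : x = ∑ a, x (J a) • w a := by
  classical
  obtain ⟨c, rfl⟩ := (Submodule.mem_span_range_iff_exists_fun K).mp hx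
  refine Finset.sum_congr rfl fun a _ => ?_
  congr 1
  rw [Finset.sum_apply, Finset.sum_eq_single a]
  · rw [Pi.smul_apply, hδ a a, if_pos rfl, smul_eq_mul, mul_one]
  · intro b _ hb
    rw [Pi.smul_apply, hδ b a, if_neg (Ne.symm hb), smul_zero]
  · intro hnot
    exact absurd (Finset.mem_univ _) hnot

/-! ### Semilinear automorphisms and fixed coefficients -/

/-- if `σ` fixes the `K`-independent family `b` and the combination `∑ c i • b i`, it fixes the
coefficients. -/
theorem ttb_coeff_fixed {ι : Type*} [Fintype ι] (b : ι → F)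
    (hb : LinearIndependent K b) (σ : SemilinearAut K F) (hσb : ∀ i, σ • b i = b i) (c : ι → K)
    (hx : σ • (∑ i, c i • b i) = ∑ i, c i • b i) (i : ι) :
    SemilinearAut.baseAut σ (c i) = c i := by
  have h1 : σ • (∑ i, c i • b i) = ∑ i, SemilinearAut.baseAut σ (c i) • b i := by
    rw [Finset.smul_sum]
    refine Finset.sum_congr rfl fun i _ => ?_
    rw [Algebra.smul_def, smul_mul', SemilinearAut.smul_algebraMap, hσb i, ← Algebra.smul_def]
  rw [h1] at hx
  have h2 : ∑ i, (SemilinearAut.baseAut σ (c i) - c i) • b i = 0 := by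
    simp only [sub_smul, Finset.sum_sub_distrib]
    rw [hx, sub_self]
  exact sub_eq_zero.mp (Fintype.linearIndependent_iff.mp hb _ h2 i)

/-! ### The divisor formula and Riemann-Roch spaces -/


section Act

variable {G : Type*} [Group G] {ρ : G →* SemilinearAut K F}


/-- the ring of `G`-fixed elements of `A` (the base ring `W` of the core). -/
def ttbFix (A : ValuationSubring K) (ρ : G →* SemilinearAut K F) : Subring K where
  carrier := {a | a ∈ A ∧ ∀ σ : G, SemilinearAut.baseAut (ρ σ) a = a}
  mul_mem' := by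
    rintro a b ⟨ha, ha'⟩ ⟨hb, hb'⟩
    exact ⟨A.mul_mem _ _ ha hb, fun σ => by rw [map_mul, ha' σ, hb' σ]⟩
  one_mem' := ⟨A.one_mem, fun σ => map_one _⟩
  add_mem' := by
    rintro a b ⟨ha, ha'⟩ ⟨hb, hb'⟩
    exact ⟨A.add_mem _ _ ha hb, fun σ => by rw [map_add, ha' σ, hb' σ]⟩
  zero_mem' := ⟨A.zero_mem, fun σ => map_zero _⟩
  neg_mem' := by
    rintro a ⟨ha, ha'⟩
    exact ⟨A.neg_mem _ ha, fun σ => by rw [map_neg, ha' σ]⟩

theorem mem_ttbFix {a : K} :
    a ∈ ttbFix A ρ ↔ a ∈ A ∧ ∀ σ : G, SemilinearAut.baseAut (ρ σ) a = a := Iff.rfl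


/-! ### Fixed elements have fixed integral coordinates; structure constants -/

/-- a `G`-fixed element of `O` in the span of a `G`-fixed family with independent reductions has
its coordinates in the fixed ring `ttbFix A ρ`. -/
theorem ttb_fixed_coeff (h : TtbRed A O red) {ι : Type*} [Fintype ι]
    (b : ι → O) (hbk : LinearIndependent (ResidueField A) fun i => red (b i))
    (hbfix : ∀ i (σ : G), ρ σ • ((b i : O) : F) = b i) (x : O)
    (hx : ((x : O) : F) ∈ Submodule.span K (Set.range fun i => ((b i : O) : F)))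
    (hxfix : ∀ σ : G, ρ σ • ((x : O) : F) = x) :
    ∃ c : ι → ttbFix A ρ, ((x : O) : F) = ∑ i, ((c i : ttbFix A ρ) : K) • ((b i : O) : F) := by
  obtain ⟨c, hc⟩ := (Submodule.mem_span_range_iff_exists_fun K).mp hx
  have hmem := ttb_coeff_mem h b hbk c (by rw [hc]; exact x.2)
  have hK := ttb_linearIndependent h b hbk
  refine ⟨fun i => ⟨c i, hmem i, fun σ => ?_⟩, hc.symm⟩
  exact ttb_coeff_fixed (fun i => ((b i : O) : F)) hK (ρ σ) (fun i => hbfix i σ) c
    (by rw [hc]; exact hxfix σ) i

/-- **structure constants** : the product of two `G`-fixed elements of `O`, if it lies in the span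
of a `G`-fixed family with independent reductions, has its coordinates in the fixed ring. -/
theorem ttb_struct_const (h : TtbRed A O red) {ι : Type*} [Fintype ι]
    (b : ι → O) (hbk : LinearIndependent (ResidueField A) fun i => red (b i))
    (hbfix : ∀ i (σ : G), ρ σ • ((b i : O) : F) = b i) (x x' : O)
    (hmul : ((x : O) : F) * ((x' : O) : F) ∈
      Submodule.span K (Set.range fun i => ((b i : O) : F)))
    (hxfix : ∀ σ : G, ρ σ • ((x : O) : F) = x) (hx'fix : ∀ σ : G, ρ σ • ((x' : O) : F) = x') :
    ∃ c : ι → ttbFix A ρ,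
      ((x : O) : F) * ((x' : O) : F) = ∑ i, ((c i : ttbFix A ρ) : K) • ((b i : O) : F) := by
  have := ttb_fixed_coeff h b hbk hbfix (x * x') hmul
    (fun σ => by push_cast; rw [smul_mul', hxfix σ, hx'fix σ])
  simpa using this


/-- **chart with fixed entries** : let `b` be a `G`-fixed family of `O` with `k`-independent
reductions and `W` a `G`-stable `K`-subspace of its span.  Then `W` is spanned by the rows
`∑ j, Z i j • b j` of a matrix `Z` in reduced echelon form with entries in the fixed ring. -/
theorem ttb_fixed_echelon (h : TtbRed A O red) {n : ℕ} (b : Fin n → O)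
    (hbk : LinearIndependent (ResidueField A) fun i => red (b i))
    (hbfix : ∀ i (σ : G), ρ σ • ((b i : O) : F) = b i) (W : Submodule K F)
    (hW : W ≤ Submodule.span K (Set.range fun i => ((b i : O) : F)))
    (hWfix : ∀ (σ : G) (w : F), w ∈ W → ρ σ • w ∈ W) :
    ∃ (s : ℕ) (J : Fin s → Fin n) (Z : Fin s → Fin n → ttbFix A ρ),
      (∀ i a, ((Z i (J a) : ttbFix A ρ) : K) = if a = i then 1 else 0) ∧
      Submodule.span K (Set.range fun i => ∑ j, ((Z i j : ttbFix A ρ) : K) • ((b j : O) : F)) =
        W := by
  classical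
  have hK := ttb_linearIndependent h b hbk
  -- the coordinate map
  let φ : (Fin n → K) →ₗ[K] F := Fintype.linearCombination K fun i => ((b i : O) : F)
  have hφ : ∀ c : Fin n → K, φ c = ∑ i, c i • ((b i : O) : F) := fun c =>
    Fintype.linearCombination_apply K _ c
  have hφinj : Function.Injective φ := by
    rw [← LinearMap.ker_eq_bot, LinearMap.ker_eq_bot']
    intro c hc
    rw [hφ] at hc
    exact funext (Fintype.linearIndependent_iff.mp hK c hc)
  obtain ⟨s, J, w, hwA, hδ, hspan⟩ := ttb_echelon A n _ (W.comap φ) rfl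
  have hwW : ∀ i, w i ∈ W.comap φ := fun i => hspan ▸ Submodule.subset_span ⟨i, rfl⟩
  -- the entries are fixed
  have hfix : ∀ (σ : G) i j, SemilinearAut.baseAut (ρ σ) (w i j) = w i j := by
    intro σ i
    have h1 : φ (fun j => SemilinearAut.baseAut (ρ σ) (w i j)) = ρ σ • φ (w i) := by
      rw [hφ, hφ, Finset.smul_sum]
      refine Finset.sum_congr rfl fun j _ => ?_
      rw [Algebra.smul_def, Algebra.smul_def, smul_mul', SemilinearAut.smul_algebraMap,
        hbfix j σ]
    have h2 : (fun j => SemilinearAut.baseAut (ρ σ) (w i j)) ∈ W.comap φ := by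
      rw [Submodule.mem_comap, h1]
      exact hWfix σ _ (hwW i)
    rw [← hspan] at h2
    have h3 := ttb_echelon_unique J w hδ _ h2
    have h4 : ∑ a, SemilinearAut.baseAut (ρ σ) (w i (J a)) • w a = w i := by
      rw [Finset.sum_eq_single i]
      · rw [hδ i i, if_pos rfl, map_one, one_smul]
      · intro a _ ha
        rw [hδ i a, if_neg ha, map_zero, zero_smul]
      · intro hnot
        exact absurd (Finset.mem_univ _) hnot
    intro j
    have := congrFun (h3.trans h4) j
    exact this
  refine ⟨s, J, fun i j => ⟨w i j, hwA i j, fun σ => hfix σ i j⟩, fun i a => hδ i a, ?_⟩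
  have hrange : (Set.range fun i => ∑ j, w i j • ((b j : O) : F)) = φ '' Set.range w := by
    ext y
    constructor
    · rintro ⟨i, rfl⟩
      exact ⟨w i, ⟨i, rfl⟩, hφ _⟩
    · rintro ⟨_, ⟨i, rfl⟩, rfl⟩
      exact ⟨i, (hφ _).symm⟩
  show Submodule.span K (Set.range fun i => ∑ j, w i j • ((b j : O) : F)) = W
  rw [hrange, ← Submodule.map_span, hspan, Submodule.map_comap_eq, inf_eq_right]
  rw [LinearMap.range_eq_map, ← Submodule.span_univ (R := K)]
  intro y hy
  obtain ⟨c, hc⟩ := (Submodule.mem_span_range_iff_exists_fun K).mp (hW hy)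
  exact ⟨c, by rw [Submodule.span_univ]; trivial, by rw [hφ]; exact hc⟩

/-- the rows of an integral matrix in reduced echelon form w.r.t. a family with independent
reductions: elements of `O` with `k`-independent reductions, which span the reduction of the
subspace they span. -/
theorem ttb_rows (h : TtbRed A O red) {n s : ℕ} (b : Fin n → O)
    (hbk : LinearIndependent (ResidueField A) fun i => red (b i)) (J : Fin s → Fin n)
    (Z : Fin s → Fin n → A)
    (hδ : ∀ i a, ((Z i (J a) : A) : K) = if a = i then 1 else 0) :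
    ∃ x : Fin s → O, (∀ i, ((x i : O) : F) = ∑ j, ((Z i j : A) : K) • ((b j : O) : F)) ∧
      (∀ i, red (x i) = ∑ j, residue A (Z i j) • red (b j)) ∧
      LinearIndependent (ResidueField A) (fun i => red (x i)) ∧
      Submodule.span (ResidueField A) (Set.range fun i => red (x i)) =
        ttbRedSub h (Submodule.span K (Set.range fun i => ((x i : O) : F))) := by
  classical
  refine ⟨fun i => ∑ j, ttbC h (Z i j) * b j, fun i => ?_, fun i => ttb_red_sum h _ _ _, ?_, ?_⟩
  · rw [AddSubmonoidClass.coe_finsetSum]
    refine Finset.sum_congr rfl fun j _ => ?_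
    rw [Subring.coe_mul, ttbC_coe, Algebra.smul_def]
  · have hind : LinearIndependent (ResidueField A)
        (fun i => ∑ j, residue A (Z i j) • red (b j)) := by
      rw [Fintype.linearIndependent_iff]
      intro a ha i
      have h1 : ∑ j, (∑ i, a i * residue A (Z i j)) • red (b j) = 0 := by
        rw [← ha]
        simp only [Finset.sum_smul, Finset.smul_sum, smul_smul]
        exact Finset.sum_comm
      have h2 := Fintype.linearIndependent_iff.mp hbk _ h1 (J i)
      rw [Finset.sum_eq_single i] at h2
      · have : residue A (Z i (J i)) = 1 := by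
          have : Z i (J i) = 1 := Subtype.ext (by rw [hδ i i, if_pos rfl]; rfl)
          rw [this, map_one]
        rwa [this, mul_one] at h2
      · intro i' _ hi'
        have : Z i' (J i) = 0 := Subtype.ext (by rw [hδ i' i, if_neg (Ne.symm hi')]; rfl)
        rw [this, map_zero, mul_zero]
      · intro hnot
        exact absurd (Finset.mem_univ _) hnot
    have : (fun i => red (∑ j, ttbC h (Z i j) * b j)) =
        fun i => ∑ j, residue A (Z i j) • red (b j) := funext fun i => ttb_red_sum h _ _ _
    rw [this]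
    exact hind
  · set x : Fin s → O := fun i => ∑ j, ttbC h (Z i j) * b j with hx
    have hind : LinearIndependent (ResidueField A) (fun i => red (x i)) := by
      have hind' : LinearIndependent (ResidueField A)
          (fun i => ∑ j, residue A (Z i j) • red (b j)) := by
        rw [Fintype.linearIndependent_iff]
        intro a ha i
        have h1 : ∑ j, (∑ i, a i * residue A (Z i j)) • red (b j) = 0 := by
          rw [← ha]
          simp only [Finset.sum_smul, Finset.smul_sum, smul_smul]
          exact Finset.sum_comm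
        have h2 := Fintype.linearIndependent_iff.mp hbk _ h1 (J i)
        rw [Finset.sum_eq_single i] at h2
        · have : residue A (Z i (J i)) = 1 := by
            have : Z i (J i) = 1 := Subtype.ext (by rw [hδ i i, if_pos rfl]; rfl)
            rw [this, map_one]
          rwa [this, mul_one] at h2
        · intro i' _ hi'
          have : Z i' (J i) = 0 := Subtype.ext (by rw [hδ i' i, if_neg (Ne.symm hi')]; rfl)
          rw [this, map_zero, mul_zero]
        · intro hnot
          exact absurd (Finset.mem_univ _) hnot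
      have : (fun i => red (x i)) = fun i => ∑ j, residue A (Z i j) • red (b j) :=
        funext fun i => ttb_red_sum h _ _ _
      rw [this]
      exact hind'
    set W : Submodule K F := Submodule.span K (Set.range fun i => ((x i : O) : F)) with hW
    have hK := ttb_linearIndependent h x hind
    haveI : FiniteDimensional K W := FiniteDimensional.span_of_finite K (Set.finite_range _)
    obtain ⟨hfR, hRle⟩ := ttb_redSub_finite h W
    haveI := hfR
    have hle : Submodule.span (ResidueField A) (Set.range fun i => red (x i)) ≤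
        ttbRedSub h W := by
      rw [Submodule.span_le]
      rintro _ ⟨i, rfl⟩
      exact ⟨x i, Submodule.subset_span ⟨i, rfl⟩, rfl⟩
    apply Submodule.eq_of_le_of_finrank_le hle
    rw [finrank_span_eq_card hind, Fintype.card_fin]
    have : finrank K W = s := by rw [hW, finrank_span_eq_card hK, Fintype.card_fin]
    rw [this] at hRle
    exact hRle

/-! ### Lifting effective divisors; principal divisors -/

end Act


/-- `K ∩ O = A`. -/
theorem ttb_const_mem_iff (h : TtbRed A O red) (c : K) : algebraMap K F c ∈ O ↔ c ∈ A := by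
  refine ⟨fun hc => ?_, fun hc => h.const_mem ⟨c, hc⟩⟩
  by_contra hcA
  have hc0 : c ≠ 0 := fun h0 => hcA (h0 ▸ A.zero_mem)
  have hlt : A.valuation c⁻¹ < 1 := by
    rw [map_inv₀]
    have : 1 < A.valuation c := not_le.mp fun hle => hcA ((A.valuation_le_one_iff _).mp hle)
    exact inv_lt_one_of_one_lt₀ this
  have hinvA : c⁻¹ ∈ A := (A.valuation_le_one_iff _).mp hlt.le
  have hid : ttbC h ⟨c⁻¹, hinvA⟩ * ⟨algebraMap K F c, hc⟩ = 1 := by
    apply Subtype.ext
    push_cast
    rw [ttbC_coe, ← map_mul, inv_mul_cancel₀ hc0, map_one]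
  have hred := congrArg red hid
  rw [ttb_red_C_mul, map_one] at hred
  have hres0 : residue A ⟨c⁻¹, hinvA⟩ = 0 := by
    rw [residue_eq_zero_iff, A.valuation_lt_one_iff]
    exact hlt
  rw [hres0, zero_smul] at hred
  obtain ⟨c', -, hmem, hne⟩ := h.scale 1 one_ne_zero
  haveI : Nontrivial Rk := ⟨⟨_, 0, hne⟩⟩
  exact zero_ne_one hred


end Fermat.Agent.TT
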