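import Mathlib
import Fermat.Agent.TT.B2.Lattice
import Fermat.Agent.FF.IntRR

/-!
# Program TT (S33), abstract two-valuation integral layer, part 3: the product of two reductions

`ttb_of_ffir` : a reduction in the sense of `FF/IntRR.lean` (target a field) is a reduction in the
sense of `TT/B2/Lattice.lean`.

`ttb_red_prod` : if `(O₁, red₁)` and `(O₂, red₂)` are two reductions of `F` over the same valuation
ring `A` (two "Gauss valuations"), then `O₁ ⊓ O₂` with `red = (red₁, red₂) : O₁ ⊓ O₂ → R₁ × R₂`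
satisfies the reduction axioms: the kernel is `𝔪_A · (O₁ ⊓ O₂)` (divide by the constant of larger
absolute value) and every nonzero `f` can be scaled into `O₁ ⊓ O₂` with nonzero reduction (scale by
the constant of smaller absolute value).
-/

set_option autoImplicit false
set_option linter.unusedSectionVars false
set_option linter.unusedVariables false

noncomputable section

namespace Fermat.Agent.TT

open IsLocalRing Fermat.Agent.FF

variable {K : Type*} [Field K] {A : ValuationSubring K}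
variable {F : Type*} [Field F] [Algebra K F]

/-- a reduction with values in a field is a reduction with values in a commutative algebra. -/
theorem ttb_of_ffir {Fk : Type*} [Field Fk] [Algebra (ResidueField A) Fk] {O : Subring F}
    {red : O →+* Fk} (h : FfirRed A O red) : TtbRed A O red where
  const_mem := h.const_mem
  red_const := h.red_const
  ker := h.ker
  scale := h.scale

variable {R₁ R₂ : Type*} [CommRing R₁] [CommRing R₂] [Algebra (ResidueField A) R₁]
  [Algebra (ResidueField A) R₂]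
variable {O₁ O₂ : Subring F}

/-- the pair of two reductions, on the intersection of the two rings. -/
def ttbProdRed (red₁ : O₁ →+* R₁) (red₂ : O₂ →+* R₂) : ↥(O₁ ⊓ O₂) →+* R₁ × R₂ :=
  (red₁.comp (Subring.inclusion inf_le_left)).prod (red₂.comp (Subring.inclusion inf_le_right))

theorem ttbProdRed_apply (red₁ : O₁ →+* R₁) (red₂ : O₂ →+* R₂) (x : ↥(O₁ ⊓ O₂)) :
    ttbProdRed red₁ red₂ x = (red₁ ⟨x.1, x.2.1⟩, red₂ ⟨x.1, x.2.2⟩) := rfl

/-- **the product of two reductions is a reduction.** -/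
theorem ttb_red_prod {red₁ : O₁ →+* R₁} {red₂ : O₂ →+* R₂} (h₁ : TtbRed A O₁ red₁)
    (h₂ : TtbRed A O₂ red₂) : TtbRed A (O₁ ⊓ O₂) (ttbProdRed red₁ red₂) where
  const_mem := fun a => ⟨h₁.const_mem a, h₂.const_mem a⟩
  red_const := fun a => by
    rw [ttbProdRed_apply]
    exact Prod.ext (h₁.red_const a) (h₂.red_const a)
  ker := by
    intro x hx
    rw [ttbProdRed_apply, Prod.mk_eq_zero] at hx
    obtain ⟨π₁, hπ₁, y₁, hy₁⟩ := h₁.ker _ hx.1
    obtain ⟨π₂, hπ₂, y₂, hy₂⟩ := h₂.ker _ hx.2
    have hx₁ : (x : F) = algebraMap K F (π₁ : K) * (y₁ : F) := hy₁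
    have hx₂ : (x : F) = algebraMap K F (π₂ : K) * (y₂ : F) := hy₂
    rcases le_total (A.valuation (π₂ : K)) (A.valuation (π₁ : K)) with hle | hle
    · -- divide by `π₁`
      by_cases h0 : (π₁ : K) = 0
      · refine ⟨π₁, hπ₁, 0, ?_⟩
        rw [hx₁, h0, map_zero, zero_mul, zero_mul]
      have ha : (π₂ : K) / (π₁ : K) ∈ A := by
        rw [← A.valuation_le_one_iff, map_div₀]
        exact div_le_one_of_le₀ hle zero_le'
      have hy : (y₁ : F) = algebraMap K F ((π₂ : K) / (π₁ : K)) * (y₂ : F) := by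
        have h0' : algebraMap K F (π₁ : K) ≠ 0 :=
          (map_ne_zero_iff _ (algebraMap K F).injective).mpr h0
        apply mul_left_cancel₀ h0'
        rw [← hx₁, hx₂, ← mul_assoc, ← map_mul, mul_div_cancel₀ _ h0]
      refine ⟨π₁, hπ₁, ⟨(y₁ : F), y₁.2, ?_⟩, hx₁⟩
      rw [hy]
      exact O₂.mul_mem (h₂.const_mem ⟨_, ha⟩) y₂.2
    · -- divide by `π₂`
      by_cases h0 : (π₂ : K) = 0
      · refine ⟨π₂, hπ₂, 0, ?_⟩
        rw [hx₂, h0, map_zero, zero_mul, zero_mul]
      have ha : (π₁ : K) / (π₂ : K) ∈ A := by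
        rw [← A.valuation_le_one_iff, map_div₀]
        exact div_le_one_of_le₀ hle zero_le'
      have hy : (y₂ : F) = algebraMap K F ((π₁ : K) / (π₂ : K)) * (y₁ : F) := by
        have h0' : algebraMap K F (π₂ : K) ≠ 0 :=
          (map_ne_zero_iff _ (algebraMap K F).injective).mpr h0
        apply mul_left_cancel₀ h0'
        rw [← hx₂, hx₁, ← mul_assoc, ← map_mul, mul_div_cancel₀ _ h0]
      refine ⟨π₂, hπ₂, ⟨(y₂ : F), ?_, y₂.2⟩, hx₂⟩
      rw [hy]
      exact O₁.mul_mem (h₁.const_mem ⟨_, ha⟩) y₁.2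
  scale := by
    intro f hf
    obtain ⟨c₁, hc₁, hm₁, hr₁⟩ := h₁.scale f hf
    obtain ⟨c₂, hc₂, hm₂, hr₂⟩ := h₂.scale f hf
    rcases le_total (A.valuation c₁) (A.valuation c₂) with hle | hle
    · -- scale by `c₁ = (c₁ / c₂) c₂`
      have ha : c₁ / c₂ ∈ A := by
        rw [← A.valuation_le_one_iff, map_div₀]
        exact div_le_one_of_le₀ hle zero_le'
      have hm : algebraMap K F c₁ * f ∈ O₂ := by
        have : algebraMap K F c₁ * f = algebraMap K F (c₁ / c₂) * (algebraMap K F c₂ * f) := by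
          rw [← mul_assoc, ← map_mul, div_mul_cancel₀ _ hc₂]
        rw [this]
        exact O₂.mul_mem (h₂.const_mem ⟨_, ha⟩) hm₂
      refine ⟨c₁, hc₁, ⟨hm₁, hm⟩, ?_⟩
      rw [ttbProdRed_apply]
      intro h0
      exact hr₁ (Prod.mk_eq_zero.mp h0).1
    · have ha : c₂ / c₁ ∈ A := by
        rw [← A.valuation_le_one_iff, map_div₀]
        exact div_le_one_of_le₀ hle zero_le'
      have hm : algebraMap K F c₂ * f ∈ O₁ := by
        have : algebraMap K F c₂ * f = algebraMap K F (c₂ / c₁) * (algebraMap K F c₁ * f) := by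
          rw [← mul_assoc, ← map_mul, div_mul_cancel₀ _ hc₁]
        rw [this]
        exact O₁.mul_mem (h₁.const_mem ⟨_, ha⟩) hm₁
      refine ⟨c₂, hc₂, ⟨hm, hm₂⟩, ?_⟩
      rw [ttbProdRed_apply]
      intro h0
      exact hr₂ (Prod.mk_eq_zero.mp h0).2

end Fermat.Agent.TT
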