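import Mathlib
import Fermat.Agent.TT.B2.Lattice
import Fermat.Agent.FF.Interp

/-!
# Program TT (S33), abstract two-valuation integral layer, part 2: interpolation

Setting of `TT/B2/Lattice.lean` (`TtbRed A O red`, `red : O → Rk` with `Rk` ANY commutative
`k`-algebra, e.g. `Fk × Fk`), `V ≤ F` a finite-dimensional `K`-subspace, `Vk ≤ Rk` a `k`-subspace
containing the reduction of `V ∩ O`, `P i` (`i : ι`, `#ι = dim_K V`) places of `F` and `k`-linear
evaluations `evk i : Vk → k` (the values at the reduced points) such that

* (value compatibility) every `x ∈ V ∩ O` has a value `x(P i) = α ∈ A` and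
  `evk i (red x) = ᾱ`;
* (general position) an element of `Vk` killed by all `evk i` is zero.

Then (`ttb_interp`) there is a family `b : ι → O` of elements of `V` with `b j (P i) = δ_ij`, which
is a `K`-basis of `V` and whose reductions are a `k`-basis of `Vk` (in particular
`dim_k Vk = dim_K V`: fullness and ONTO at once).  A semilinear automorphism fixing the points and
stabilising `V` fixes the `b j` (`ttb_interp_fixed`); `ttb_basis` packages both for a group action
and `ttb_onto` gives fixed lifts of all elements of `Vk` from fixed lifts of the residues.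
-/

set_option autoImplicit false
set_option linter.unusedSectionVars false
set_option linter.unusedVariables false
set_option linter.style.haveILetI false

noncomputable section

namespace Fermat.Agent.TT

open AlgebraicCurve IsLocalRing Module Fermat.Agent.G Fermat.Agent.FF

variable {K : Type*} [Field K] {A : ValuationSubring K}
variable {F : Type*} [Field F] [Algebra K F]
variable {Rk : Type*} [CommRing Rk] [Algebra (ResidueField A) Rk]
variable {O : Subring F} {red : O →+* Rk}

/-- value compatibility at the points `P i` : values of the elements of `V ∩ O` are in `A` and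
commute with reduction. -/
def TtbVal (red : O →+* Rk) (V : Submodule K F) (Vk : Submodule (ResidueField A) Rk)
    (hin : ∀ x : O, ((x : O) : F) ∈ V → red x ∈ Vk) {ι : Type*} (P : ι → Place K F)
    (evk : ι → Vk →ₗ[ResidueField A] ResidueField A) : Prop :=
  ∀ (x : O) (hx : ((x : O) : F) ∈ V) (i : ι), ∃ α : A, GrdVal (P i) ((x : O) : F) (α : K) ∧
    evk i ⟨red x, hin x hx⟩ = residue A α

section Main

variable (h : TtbRed A O red) (V : Submodule K F) (Vk : Submodule (ResidueField A) Rk)
variable (hin : ∀ x : O, ((x : O) : F) ∈ V → red x ∈ Vk)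
variable {ι : Type*} [Fintype ι] (P : ι → Place K F)
variable (evk : ι → Vk →ₗ[ResidueField A] ResidueField A)

include h

/-- every element of `V` has a value at every `P i`. -/
theorem ttb_exists_val (hval : TtbVal red V Vk hin P evk) (x : F) (hx : x ∈ V) (i : ι) :
    ∃ a : K, GrdVal (P i) x a := by
  by_cases hx0 : x = 0
  · exact ⟨0, hx0 ▸ ffin_val_zero (P i)⟩
  obtain ⟨c, hc, hmem, -⟩ := h.scale x hx0
  have hyV : algebraMap K F c * x ∈ V := by rw [← Algebra.smul_def]; exact V.smul_mem _ hx
  obtain ⟨α, hα, -⟩ := hval ⟨algebraMap K F c * x, hmem⟩ hyV i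
  refine ⟨c⁻¹ * α, ?_⟩
  have := ffin_val_smul (P i) c⁻¹ hα
  rwa [← mul_assoc, ← map_mul, inv_mul_cancel₀ hc, map_one, one_mul] at this

/-- **injectivity of the evaluation** : an element of `V` vanishing at all `P i` is zero. -/
theorem ttb_eq_zero_of_val_zero (hval : TtbVal red V Vk hin P evk)
    (hgen : ∀ c : Vk, (∀ i, evk i c = 0) → c = 0) (x : F) (hx : x ∈ V)
    (hx0 : ∀ i, GrdVal (P i) x 0) : x = 0 := by
  by_contra hne
  obtain ⟨c, hc, hmem, hred⟩ := h.scale x hne
  have hyV : algebraMap K F c * x ∈ V := by rw [← Algebra.smul_def]; exact V.smul_mem _ hx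
  apply hred
  have hz : (⟨red ⟨algebraMap K F c * x, hmem⟩, hin _ hyV⟩ : Vk) = 0 := by
    apply hgen
    intro i
    obtain ⟨α, hα, hαk⟩ := hval ⟨algebraMap K F c * x, hmem⟩ hyV i
    have h1 := ffin_val_smul (P i) c (hx0 i)
    rw [mul_zero] at h1
    have h2 : (α : K) = 0 := grdg_val_unique (P i) hα h1
    have h3 : α = 0 := Subtype.ext h2
    rw [hαk, h3, map_zero]
  exact congrArg Subtype.val hz

variable [DecidableEq ι]

/-- **(INTERP)** the orthonormal interpolation basis, for a reduction with values in a commutative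
`k`-algebra. -/
theorem ttb_interp [FiniteDimensional K V] (hcard : Fintype.card ι = finrank K V)
    (hval : TtbVal red V Vk hin P evk) (hgen : ∀ c : Vk, (∀ i, evk i c = 0) → c = 0) :
    ∃ b : ι → O, (∀ j, ((b j : O) : F) ∈ V) ∧
      (∀ i j, GrdVal (P i) ((b j : O) : F) (if i = j then 1 else 0)) ∧
      (∀ i j (hj : red (b j) ∈ Vk), evk i ⟨red (b j), hj⟩ = if i = j then 1 else 0) ∧
      LinearIndependent (ResidueField A) (fun j => red (b j)) ∧
      Submodule.span (ResidueField A) (Set.range fun j => red (b j)) = Vk ∧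
      LinearIndependent K (fun j => ((b j : O) : F)) ∧
      Submodule.span K (Set.range fun j => ((b j : O) : F)) = V := by
  classical
  -- the evaluation map
  have hex : ∀ (x : V) (i : ι), ∃ a : K, GrdVal (P i) (x : F) a := fun x i =>
    ttb_exists_val h V Vk hin P evk hval x x.2 i
  choose e he using hex
  let ev : V →ₗ[K] (ι → K) :=
    { toFun := fun x i => e x i
      map_add' := fun x y => funext fun i =>
        grdg_val_unique (P i) (he (x + y) i) (grdg_val_add (P i) (he x i) (he y i))
      map_smul' := fun c x => funext fun i => by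
        have h1 := ffin_val_smul (P i) c (he x i)
        rw [← Algebra.smul_def] at h1
        exact grdg_val_unique (P i) (he (c • x) i) h1 }
  have hev : ∀ (x : V) (i : ι), ev x i = e x i := fun _ _ => rfl
  have hinj : Function.Injective ev := by
    rw [← LinearMap.ker_eq_bot, LinearMap.ker_eq_bot']
    intro x hx
    have : (x : F) = 0 :=
      ttb_eq_zero_of_val_zero h V Vk hin P evk hval hgen x x.2 fun i => by
        have := he x i
        rw [← hev, hx] at this
        exact this
    exact Subtype.ext this
  have hsurj : Function.Surjective ev := by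
    refine (LinearMap.injective_iff_surjective_of_finrank_eq_finrank ?_).mp hinj
    rw [Module.finrank_fintype_fun_eq_card, hcard]
  -- the preimages of the unit vectors
  choose x hx using fun j : ι => hsurj (Pi.single j 1)
  have hxval : ∀ i j, GrdVal (P i) ((x j : V) : F) (if i = j then 1 else 0) := by
    intro i j
    have := he (x j) i
    rw [← hev, hx j, Pi.single_apply] at this
    exact this
  -- they lie in `O`
  have hxO : ∀ j, ((x j : V) : F) ∈ O := by
    intro j
    have hxj0 : ((x j : V) : F) ≠ 0 := by
      intro h0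
      have := grdg_val_unique (P j) (hxval j j) (h0 ▸ ffin_val_zero (P j))
      rw [if_pos rfl] at this
      exact one_ne_zero this
    obtain ⟨c, hc, hmem, hred⟩ := h.scale _ hxj0
    have hyV : algebraMap K F c * ((x j : V) : F) ∈ V := by
      rw [← Algebra.smul_def]; exact V.smul_mem _ (x j).2
    -- the values of `y = c x j`
    have hyval : ∀ i, ∃ α : A, (α : K) = c * (if i = j then 1 else 0) ∧
        evk i ⟨red ⟨algebraMap K F c * ((x j : V) : F), hmem⟩, hin _ hyV⟩ = residue A α := by
      intro i
      obtain ⟨α, hα, hαk⟩ := hval ⟨_, hmem⟩ hyV i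
      exact ⟨α, grdg_val_unique (P i) hα (ffin_val_smul (P i) c (hxval i j)), hαk⟩
    obtain ⟨αj, hαj, -⟩ := hyval j
    rw [if_pos rfl, mul_one] at hαj
    have hcA : c ∈ A := hαj ▸ αj.2
    have hresc : residue A ⟨c, hcA⟩ ≠ 0 := by
      intro hres
      apply hred
      have hz : (⟨red ⟨algebraMap K F c * ((x j : V) : F), hmem⟩, hin _ hyV⟩ : Vk) = 0 := by
        apply hgen
        intro i
        obtain ⟨α, hα, hαk⟩ := hyval i
        have : residue A α = 0 := by
          by_cases hij : i = j
          · have : α = ⟨c, hcA⟩ := Subtype.ext (by rw [hα, if_pos hij, mul_one])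
            rw [this, hres]
          · have : α = 0 := Subtype.ext (by rw [hα, if_neg hij, mul_zero]; rfl)
            rw [this, map_zero]
        rw [hαk, this]
      exact congrArg Subtype.val hz
    have hunit : IsUnit (⟨c, hcA⟩ : A) := by
      by_contra hnu
      exact hresc ((residue_eq_zero_iff _).mpr hnu)
    have hv1 : A.valuation c = 1 := (A.valuation_eq_one_iff ⟨c, hcA⟩).mp hunit
    have hinvA : c⁻¹ ∈ A := by
      rw [← A.valuation_le_one_iff, map_inv₀, hv1, inv_one]
    have : ((x j : V) : F) = algebraMap K F c⁻¹ * (algebraMap K F c * ((x j : V) : F)) := by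
      rw [← mul_assoc, ← map_mul, inv_mul_cancel₀ hc, map_one, one_mul]
    rw [this]
    exact O.mul_mem (h.const_mem ⟨c⁻¹, hinvA⟩) hmem
  set b : ι → O := fun j => ⟨((x j : V) : F), hxO j⟩ with hb
  have hbV : ∀ j, ((b j : O) : F) ∈ V := fun j => (x j).2
  -- the values of the reductions
  have hbk : ∀ i j (hj : red (b j) ∈ Vk), evk i ⟨red (b j), hj⟩ = if i = j then 1 else 0 := by
    intro i j hj
    obtain ⟨α, hα, hαk⟩ := hval (b j) (hbV j) i
    have h1 : (α : K) = if i = j then 1 else 0 := grdg_val_unique (P i) hα (hxval i j)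
    have h2 : residue A α = if i = j then 1 else 0 := by
      split_ifs with hij
      · have : α = 1 := Subtype.ext (by rw [h1, if_pos hij]; rfl)
        rw [this, map_one]
      · have : α = 0 := Subtype.ext (by rw [h1, if_neg hij]; rfl)
        rw [this, map_zero]
    rw [← h2, ← hαk]
  have hind : LinearIndependent (ResidueField A) (fun j => red (b j)) := by
    rw [Fintype.linearIndependent_iff]
    intro a ha i
    have hsum : (∑ j, a j • (⟨red (b j), hin (b j) (hbV j)⟩ : Vk)) = 0 := by
      apply Subtype.ext
      rw [Submodule.coe_sum]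
      simpa using ha
    have h1 := congrArg (evk i) hsum
    rw [map_sum, map_zero] at h1
    simp only [map_smul, smul_eq_mul, hbk] at h1
    rw [Finset.sum_eq_single i] at h1
    · rwa [if_pos rfl, mul_one] at h1
    · intro j _ hj
      rw [if_neg (Ne.symm hj), mul_zero]
    · intro hnot
      exact absurd (Finset.mem_univ _) hnot
  have hK := ttb_linearIndependent h b hind
  -- `Vk` embeds into `k^ι`
  let evkAll : Vk →ₗ[ResidueField A] (ι → ResidueField A) := LinearMap.pi evk
  have hevkinj : Function.Injective evkAll := by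
    rw [← LinearMap.ker_eq_bot, LinearMap.ker_eq_bot']
    intro c hc
    exact hgen c fun i => congrFun hc i
  haveI : FiniteDimensional (ResidueField A) Vk := Module.Finite.of_injective evkAll hevkinj
  have hVk : finrank (ResidueField A) Vk ≤ Fintype.card ι := by
    have := LinearMap.finrank_le_finrank_of_injective hevkinj
    rwa [Module.finrank_fintype_fun_eq_card] at this
  refine ⟨b, hbV, hxval, hbk, hind, ?_, hK, ?_⟩
  · have hle : Submodule.span (ResidueField A) (Set.range fun j => red (b j)) ≤ Vk :=
      Submodule.span_le.mpr (by rintro _ ⟨j, rfl⟩; exact hin (b j) (hbV j))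
    apply Submodule.eq_of_le_of_finrank_le hle
    rw [finrank_span_eq_card hind]
    exact hVk
  · have hle : Submodule.span K (Set.range fun j => ((b j : O) : F)) ≤ V :=
      Submodule.span_le.mpr (by rintro _ ⟨j, rfl⟩; exact hbV j)
    apply Submodule.eq_of_le_of_finrank_eq hle
    rw [finrank_span_eq_card hK, hcard]

/-- the interpolation basis is fixed by every semilinear automorphism fixing the points and
stabilising `V`. -/
theorem ttb_interp_fixed (hval : TtbVal red V Vk hin P evk)
    (hgen : ∀ c : Vk, (∀ i, evk i c = 0) → c = 0) (σ : SemilinearAut K F)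
    (hσP : ∀ i, σ • P i = P i) (hσV : ∀ x ∈ V, σ • x ∈ V) (y : F) (hy : y ∈ V) (j : ι)
    (hyval : ∀ i, GrdVal (P i) y (if i = j then 1 else 0)) : σ • y = y := by
  have hz : σ • y - y = 0 := by
    refine ttb_eq_zero_of_val_zero h V Vk hin P evk hval hgen _ (V.sub_mem (hσV y hy) hy)
      fun i => ?_
    have h1 := ffin_val_smul_aut σ (P i) (hyval i)
    rw [hσP i] at h1
    have h2 : SemilinearAut.baseAut σ (if i = j then (1 : K) else 0) = if i = j then 1 else 0 := by
      split_ifs
      · exact map_one _
      · exact map_zero _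
    rw [h2] at h1
    have := grdg_val_add (P i) h1 (grdg_val_neg (P i) (hyval i))
    rwa [← sub_eq_add_neg, add_neg_cancel] at this
  exact sub_eq_zero.mp hz

end Main

section Group

variable {G : Type*} [Group G]

/-- **the fixed reduced basis** : for a group `G` of semilinear automorphisms fixing the points
`P i` and stabilising `V`, the interpolation basis is `G`-fixed. -/
theorem ttb_basis (h : TtbRed A O red) (V : Submodule K F)
    (Vk : Submodule (ResidueField A) Rk) (hin : ∀ x : O, ((x : O) : F) ∈ V → red x ∈ Vk)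
    {ι : Type*} [Fintype ι] [DecidableEq ι] (P : ι → Place K F)
    (evk : ι → Vk →ₗ[ResidueField A] ResidueField A) [FiniteDimensional K V]
    (hcard : Fintype.card ι = finrank K V) (hval : TtbVal red V Vk hin P evk)
    (hgen : ∀ c : Vk, (∀ i, evk i c = 0) → c = 0) (ρ : G →* SemilinearAut K F)
    (hPfix : ∀ (σ : G) i, ρ σ • P i = P i) (hVfix : ∀ (σ : G), ∀ x ∈ V, ρ σ • x ∈ V) :
    ∃ b : ι → O, (∀ j, ((b j : O) : F) ∈ V) ∧
      (∀ j (σ : G), ρ σ • ((b j : O) : F) = b j) ∧
      LinearIndependent (ResidueField A) (fun j => red (b j)) ∧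
      Submodule.span (ResidueField A) (Set.range fun j => red (b j)) = Vk ∧
      LinearIndependent K (fun j => ((b j : O) : F)) ∧
      Submodule.span K (Set.range fun j => ((b j : O) : F)) = V := by
  obtain ⟨b, hbV, hbval, -, hbk, hspank, hbK, hspanK⟩ :=
    ttb_interp h V Vk hin P evk hcard hval hgen
  refine ⟨b, hbV, fun j σ => ?_, hbk, hspank, hbK, hspanK⟩
  exact ttb_interp_fixed h V Vk hin P evk hval hgen (ρ σ) (hPfix σ) (hVfix σ) _ (hbV j) j
    (fun i => hbval i j)

/-- **ONTO with fixed lifts** : every element of `Vk` is the reduction of a `G`-fixed element of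
`V ∩ O`, provided every residue class has a `G`-fixed representative. -/
theorem ttb_onto (h : TtbRed A O red) (V : Submodule K F)
    (Vk : Submodule (ResidueField A) Rk) (hin : ∀ x : O, ((x : O) : F) ∈ V → red x ∈ Vk)
    {ι : Type*} [Fintype ι] [DecidableEq ι] (P : ι → Place K F)
    (evk : ι → Vk →ₗ[ResidueField A] ResidueField A) [FiniteDimensional K V]
    (hcard : Fintype.card ι = finrank K V) (hval : TtbVal red V Vk hin P evk)
    (hgen : ∀ c : Vk, (∀ i, evk i c = 0) → c = 0) (ρ : G →* SemilinearAut K F)
    (hPfix : ∀ (σ : G) i, ρ σ • P i = P i) (hVfix : ∀ (σ : G), ∀ x ∈ V, ρ σ • x ∈ V)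
    (hW : ∀ κ : ResidueField A, ∃ a : A, residue A a = κ ∧
      ∀ σ : G, SemilinearAut.baseAut (ρ σ) (a : K) = a) :
    ∀ c ∈ Vk, ∃ x : O, ((x : O) : F) ∈ V ∧ red x = c ∧ ∀ σ : G, ρ σ • ((x : O) : F) = x := by
  classical
  obtain ⟨b, hbV, hbfix, hbk, hspank, hbK, hspanK⟩ :=
    ttb_basis h V Vk hin P evk hcard hval hgen ρ hPfix hVfix
  intro c hc
  rw [← hspank] at hc
  obtain ⟨κ, hκ⟩ := (Submodule.mem_span_range_iff_exists_fun (ResidueField A)).mp hc
  choose w hw hwfix using fun j => hW (κ j)
  refine ⟨∑ j, ttbC h (w j) * b j, ?_, ?_, fun σ => ?_⟩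
  · rw [AddSubmonoidClass.coe_finsetSum]
    refine Submodule.sum_mem _ fun j _ => ?_
    rw [Subring.coe_mul, ttbC_coe, ← Algebra.smul_def]
    exact Submodule.smul_mem _ _ (hbV j)
  · rw [ttb_red_sum, ← hκ]
    exact Finset.sum_congr rfl fun j _ => by rw [hw j]
  · rw [AddSubmonoidClass.coe_finsetSum, Finset.smul_sum]
    refine Finset.sum_congr rfl fun j _ => ?_
    rw [Subring.coe_mul, ttbC_coe, smul_mul', SemilinearAut.smul_algebraMap, hwfix j σ,
      hbfix j σ]

end Group

end Fermat.Agent.TT
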