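import Mathlib
import Fermat.Agent.TT.B2.Interp
import Fermat.Agent.FF.IntRR
import Fermat.Agent.FF.Fam.Coord
import Fermat.Agent.TT.Nodal.Coord

/-!
# Program TT (S33), abstract two-valuation integral layer, part 4: the two fibres of the engine

Owner: helper26.  Namespace `Fermat.Agent.TT`, prefix `ttb`.

Setting of `TT/B2/Lattice.lean` (`TtbRed A O red`, `red : O → Rk`, `Rk` ANY commutative
`k`-algebra, e.g. `Fk × Fk`), a group `G` acting through `ρ : G →* SemilinearAut K F`, a divisor
`dd` of the generic fibre, `k`-subspaces `Vk i ≤ Rk` (the level spaces of the closed fibre) and,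
for the levels `i = 1..5`, `G`-fixed families `b i : ι i → O` which are `K`-bases of `L(i • dd)`
and whose reductions are `k`-bases of `Vk i` (`TtbLevel`; produced by `ttb_basis`).

* `ttb_model` : a multiplication table `cW` over any ring `W` through which the fixed ring
  `ttbFix A ρ` factors, the generic fibre `fibK : FffmFib ι K F g (algebraMap ∘ cW)` of the engine
  (basis `b`) and the closed fibre `coord : TtnkCoord ι k Rk (residue ∘ algebraMap ∘ cW)`
  (helper25's literal; basis `red ∘ b`, level spaces `Vk`) - the TT analogue of `fffi_model`;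
* `ttb_model_pts` : the same with the bases produced by `ttb_basis` from points in general
  position at each level.
* `ttb_rep_comap` : a subspace `V'` of the level space `lvl i` is represented (`TtnkRep`) by
  `V'.comap (coord.real i)`;
* `ttb_model_red` : the bridge between the two coordinate systems: an integral vector `v` with
  `∑ v p • b i p ∈ O` reduces to `coord.real i (residue ∘ v)`.
-/

set_option autoImplicit false
set_option linter.unusedSectionVars false
set_option linter.unusedVariables false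
set_option linter.style.haveILetI false

noncomputable section

namespace Fermat.Agent.TT

open AlgebraicCurve IsLocalRing Module Fermat.Agent.G Fermat.Agent.FF Fermat.Agent.V.RR

variable {K : Type*} [Field K] {A : ValuationSubring K}
variable {F : Type*} [Field F] [Algebra K F]
variable {Rk : Type*} [CommRing Rk] [Algebra (ResidueField A) Rk]
variable {O : Subring F} {red : O →+* Rk} {G : Type*} [Group G]

/-- the properties of a `G`-fixed reduced basis of `V` with reduction `Vk`
(the output of `ttb_basis`). -/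
def TtbLevel (red : O →+* Rk) (ρ : G →* SemilinearAut K F) (V : Submodule K F)
    (Vk : Submodule (ResidueField A) Rk) {ι : Type*} (b : ι → O) : Prop :=
  (∀ p, ((b p : O) : F) ∈ V) ∧
  (∀ p (σ : G), ρ σ • ((b p : O) : F) = b p) ∧
  LinearIndependent (ResidueField A) (fun p => red (b p)) ∧
  Submodule.span (ResidueField A) (Set.range fun p => red (b p)) = Vk ∧
  LinearIndependent K (fun p => ((b p : O) : F)) ∧
  Submodule.span K (Set.range fun p => ((b p : O) : F)) = V

/-- **the two fibres of the engine from the reduced bases** -/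
theorem ttb_model (h : TtbRed A O red) (ρ : G →* SemilinearAut K F) {g : ℕ}
    (RR : V27RR K F g) (hdeg : ∀ P : Place K F, P.deg = 1) [Infinite K]
    {W : Type*} [CommRing W] [Algebra W ↥A]
    (hW : ∀ a : K, a ∈ ttbFix A ρ → ∃ w : W, ((algebraMap W ↥A w : ↥A) : K) = a)
    (dd : Divisor K F) (hdd : 5 * (g : ℤ) ≤ Divisor.degree dd)
    (Vk : ℕ → Submodule (ResidueField A) Rk)
    {ι : ℕ → Type} [∀ i, Fintype (ι i)] (b : ∀ i, ι i → O)
    (hb : ∀ i, 1 ≤ i → i ≤ 5 → TtbLevel red ρ (riemannRochSpace (i • dd)) (Vk i) (b i)) :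
    ∃ (cW : ∀ i j l : ℕ, ι i → ι j → ι l → W)
      (fibK : FffmFib ι K F g
        (fun i j l p q s => ((algebraMap W ↥A (cW i j l p q s) : ↥A) : K)))
      (coord : TtnkCoord ι (ResidueField A) Rk
        (fun i j l p q s => residue ↥A (algebraMap W ↥A (cW i j l p q s)))),
      fibK.dd = dd ∧ (∀ i, fibK.b i = fun p => ((b i p : O) : F)) ∧
      coord.lvl = Vk ∧ (∀ i, coord.b i = fun p => red (b i p)) := by
  classical
  -- the table
  have hcex : ∀ (i j l : ℕ) (p : ι i) (q : ι j), ∃ c : ι l → W,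
      l = i + j → 1 ≤ i → 1 ≤ j → l ≤ 5 →
      ((b i p : O) : F) * ((b j q : O) : F) =
        ∑ s, ((algebraMap W ↥A (c s) : ↥A) : K) • ((b l s : O) : F) := by
    intro i j l p q
    by_cases hc : l = i + j ∧ 1 ≤ i ∧ 1 ≤ j ∧ l ≤ 5
    · obtain ⟨hl, hi, hj, hl5⟩ := hc
      have hl1 : 1 ≤ l := by omega
      have hi5 : i ≤ 5 := by omega
      have hj5 : j ≤ 5 := by omega
      obtain ⟨hi1, hi2, -, -, -, -⟩ := hb i hi hi5
      obtain ⟨hj1, hj2, -, -, -, -⟩ := hb j hj hj5
      obtain ⟨-, hl2, hl3, -, -, hl6⟩ := hb l hl1 hl5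
      have hsum : i • dd + j • dd = l • dd := by rw [← add_smul, hl]
      have hmul : ((b i p : O) : F) * ((b j q : O) : F) ∈
          Submodule.span K (Set.range fun s => ((b l s : O) : F)) := by
        rw [hl6, ← hsum]
        exact ffir_mul_mem_rrSpace (hi1 p) (hj1 q)
      obtain ⟨c, hc⟩ := ttb_struct_const (ρ := ρ) h (b l) hl3 hl2 (b i p) (b j q) hmul
        (hi2 p) (hj2 q)
      choose w hw using fun s => hW _ (c s).2
      refine ⟨w, fun _ _ _ _ => ?_⟩
      rw [hc]
      exact Finset.sum_congr rfl fun s _ => by rw [hw s]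
    · exact ⟨fun _ => 0, fun h1 h2 h3 h4 => absurd ⟨h1, h2, h3, h4⟩ hc⟩
  choose cW hcW using hcex
  refine ⟨cW,
    { RR := RR
      inf := inferInstance
      hdeg1 := hdeg
      dd := dd
      hdd := hdd
      b := fun i p => ((b i p : O) : F)
      li := fun i h1 h5 => (hb i h1 h5).2.2.2.2.1
      span := fun i h1 h5 => (hb i h1 h5).2.2.2.2.2
      mul := fun i j l hl hi hj h5 p q => hcW i j l p q hl hi hj h5 },
    { lvl := Vk
      b := fun i p => red (b i p)
      li := fun i h1 h5 => (hb i h1 h5).2.2.1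
      span := fun i h1 h5 => (hb i h1 h5).2.2.2.1
      mul := fun i j l hl hi hj h5 p q => by
        have h1 := hcW i j l p q hl hi hj h5
        have hmem : ∑ s, (((algebraMap W ↥A (cW i j l p q s) : ↥A) : K)) •
            ((b l s : O) : F) ∈ O := by
          rw [← h1]
          exact O.mul_mem (b i p).2 (b j q).2
        have h2 := ttb_coord_red h (b l) (fun s => algebraMap W ↥A (cW i j l p q s)) hmem
        rw [← map_mul, ← h2]
        congr 1
        exact Subtype.ext h1 },
    rfl, fun i => rfl, rfl, fun i => rfl⟩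

/-- **the bridge between the two coordinate systems**: the reduction of an integral combination
of the basis of level `i` is the realization of the reduced coordinate vector. -/
theorem ttb_model_red (h : TtbRed A O red) {ι : ℕ → Type} [∀ i, Fintype (ι i)]
    {c : ∀ i j l : ℕ, ι i → ι j → ι l → ResidueField A}
    (coord : TtnkCoord ι (ResidueField A) Rk c) (b : ∀ i, ι i → O)
    (hcb : ∀ i, coord.b i = fun p => red (b i p)) (i : ℕ) (v : ι i → A)
    (hmem : ∑ p, ((v p : A) : K) • ((b i p : O) : F) ∈ O) :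
    red ⟨∑ p, ((v p : A) : K) • ((b i p : O) : F), hmem⟩ =
      coord.real i (fun p => residue A (v p)) := by
  rw [ttb_coord_red h (b i) v hmem, coord.real_apply, hcb]

/-- the coordinate form of (R-in): if the reduction of `V ∩ O` lies in `Vk'`, the integral
coordinate vectors of `V` reduce into the coordinate subspace of `Vk'`. -/
theorem ttb_model_coord_mem (h : TtbRed A O red) {ι : ℕ → Type} [∀ i, Fintype (ι i)]
    {c : ∀ i j l : ℕ, ι i → ι j → ι l → ResidueField A}
    (coord : TtnkCoord ι (ResidueField A) Rk c) (b : ∀ i, ι i → O)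
    (hcb : ∀ i, coord.b i = fun p => red (b i p)) (i : ℕ) (V : Submodule K F)
    (Vk' : Submodule (ResidueField A) Rk) (hin : ∀ x : O, ((x : O) : F) ∈ V → red x ∈ Vk')
    (v : ι i → A) (hv : ∑ p, ((v p : A) : K) • ((b i p : O) : F) ∈ V) :
    (fun p => residue A (v p)) ∈ Vk'.comap (coord.real i) := by
  have hmem : ∑ p, ((v p : A) : K) • ((b i p : O) : F) ∈ O := by
    refine Subring.sum_mem _ fun p _ => ?_
    rw [Algebra.smul_def]
    exact O.mul_mem (h.const_mem (v p)) (b i p).2
  rw [Submodule.mem_comap, ← ttb_model_red h coord b hcb i v hmem]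
  exact hin _ hv

/-- a subspace of the level space is represented by its coordinate subspace. -/
theorem ttb_rep_comap {ι : ℕ → Type} [∀ i, Fintype (ι i)] {k 𝒜 : Type*} [Field k] [CommRing 𝒜]
    [Algebra k 𝒜] {c : ∀ i j l : ℕ, ι i → ι j → ι l → k} (coord : TtnkCoord ι k 𝒜 c) {i : ℕ}
    (h1 : 1 ≤ i) (h5 : i ≤ 5) {V' : Submodule k 𝒜} (hV' : V' ≤ coord.lvl i) :
    TtnkRep coord i (V'.comap (coord.real i)) V' := by
  rw [TtnkRep, Submodule.map_comap_eq, coord.range_real h1 h5]
  exact inf_eq_right.mpr hV'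

/-- **the two fibres of the engine from points in general position** : `ttb_model` with the
bases produced by `ttb_basis`. -/
theorem ttb_model_pts (h : TtbRed A O red) (ρ : G →* SemilinearAut K F) {g : ℕ}
    (RR : V27RR K F g) (hdeg : ∀ P : Place K F, P.deg = 1) [Infinite K]
    {W : Type*} [CommRing W] [Algebra W ↥A]
    (hW : ∀ a : K, a ∈ ttbFix A ρ → ∃ w : W, ((algebraMap W ↥A w : ↥A) : K) = a)
    (dd : Divisor K F) (hdd : 5 * (g : ℤ) ≤ Divisor.degree dd)
    (hddfix : ∀ σ : G, ρ σ • dd = dd)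
    (Vk : ℕ → Submodule (ResidueField A) Rk)
    (hin : ∀ i, ∀ x : O, ((x : O) : F) ∈ riemannRochSpace (i • dd) → red x ∈ Vk i)
    {ι : ℕ → Type} [∀ i, Fintype (ι i)] [∀ i, DecidableEq (ι i)]
    (P : ∀ i, ι i → Place K F)
    (evk : ∀ i, ι i → Vk i →ₗ[ResidueField A] ResidueField A)
    (hcard : ∀ i, 1 ≤ i → i ≤ 5 →
      Fintype.card (ι i) = finrank K (riemannRochSpace (i • dd)))
    (hval : ∀ i, 1 ≤ i → i ≤ 5 →
      TtbVal red (riemannRochSpace (i • dd)) (Vk i) (hin i) (P i) (evk i))
    (hgen : ∀ i, 1 ≤ i → i ≤ 5 → ∀ c : Vk i, (∀ p, evk i p c = 0) → c = 0)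
    (hPfix : ∀ i, 1 ≤ i → i ≤ 5 → ∀ (σ : G) p, ρ σ • P i p = P i p) :
    ∃ (b : ∀ i, ι i → O) (cW : ∀ i j l : ℕ, ι i → ι j → ι l → W)
      (fibK : FffmFib ι K F g
        (fun i j l p q s => ((algebraMap W ↥A (cW i j l p q s) : ↥A) : K)))
      (coord : TtnkCoord ι (ResidueField A) Rk
        (fun i j l p q s => residue ↥A (algebraMap W ↥A (cW i j l p q s)))),
      fibK.dd = dd ∧ (∀ i, fibK.b i = fun p => ((b i p : O) : F)) ∧
      coord.lvl = Vk ∧ (∀ i, coord.b i = fun p => red (b i p)) ∧
      ∀ i, 1 ≤ i → i ≤ 5 → TtbLevel red ρ (riemannRochSpace (i • dd)) (Vk i) (b i) := by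
  classical
  have hVfix : ∀ (i : ℕ) (σ : G), ∀ x ∈ riemannRochSpace (i • dd),
      ρ σ • x ∈ riemannRochSpace (i • dd) := by
    intro i σ x hx
    exact ffin_rrSpace_smul (ρ σ) (by rw [smul_comm, hddfix σ]) hx
  have hbex : ∀ i : ℕ, ∃ b : ι i → O, 1 ≤ i → i ≤ 5 →
      TtbLevel red ρ (riemannRochSpace (i • dd)) (Vk i) b := by
    intro i
    by_cases hi : 1 ≤ i ∧ i ≤ 5
    · haveI : FiniteDimensional K (riemannRochSpace (i • dd)) := RR.finL _
      obtain ⟨b, hb⟩ := ttb_basis h (riemannRochSpace (i • dd)) (Vk i) (hin i) (P i) (evk i)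
        (hcard i hi.1 hi.2) (hval i hi.1 hi.2) (hgen i hi.1 hi.2) ρ
        (hPfix i hi.1 hi.2) (hVfix i)
      exact ⟨b, fun _ _ => hb⟩
    · exact ⟨fun _ => 0, fun h1 h5 => absurd ⟨h1, h5⟩ hi⟩
  choose b hb using hbex
  obtain ⟨cW, fibK, coord, h1, h2, h3, h4⟩ := ttb_model h ρ RR hdeg hW dd hdd Vk b hb
  exact ⟨b, cW, fibK, coord, h1, h2, h3, h4, hb⟩

end Fermat.Agent.TT
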