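import Mathlib
import Fermat.Agent.TT.B2.Model
import Fermat.Agent.TT.Eng.Model

/-!
# Program TT (S33), abstract two-valuation integral layer, part 6: the bases of `tte_model` from
points in general position

Owner: helper26.  Namespace `Fermat.Agent.TT`, prefix `ttb`.

helper13's `tte_model` (TT/Eng/Model.lean) takes, for every level `i = 1..5`, a `G`-fixed reduced
basis `TteBasis red ρ L(i𝔡) L̃(i𝔡̃) b` indexed by some `Fin n` (hypothesis `hbas`).  Here `hbas` is
discharged by `ttb_basis`: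

* `ttb_level_fin` : a `TtbLevel` family indexed by any `Fintype` gives a `TteBasis` indexed by
  `Fin n`;
* `ttb_hbas`      : `∃ n b, TteBasis red ρ V Vk b` from (R-in) + points in general position with
  value compatibility (the hypotheses of `ttb_basis`);
* `ttb_model_pts_fin` : `tte_model` with per-level points instead of `hbas`.
-/

set_option autoImplicit false
set_option linter.unusedSectionVars false
set_option linter.unusedVariables false
set_option linter.style.haveILetI false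

noncomputable section

namespace Fermat.Agent.TT

open AlgebraicCurve IsLocalRing Module Fermat.Agent.G Fermat.Agent.FF Fermat.Agent.V.RR

variable {K : Type*} [Field K] {A : ValuationSubring K}
variable {F : Type*} [Field F] [Algebra K F]
variable {Rk : Type*} [CommRing Rk] [Algebra (ResidueField A) Rk]
variable {O : Subring F} {red : O →+* Rk} {G : Type*} [Group G]

/-- reindexing a reduced basis by `Fin n`. -/
theorem ttb_level_fin {ρ : G →* SemilinearAut K F} {V : Submodule K F}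
    {Vk : Submodule (ResidueField A) Rk} {ι : Type*} [Fintype ι] {b : ι → O}
    (hb : TtbLevel red ρ V Vk b) :
    ∃ (n : ℕ) (b' : Fin n → O), TteBasis red ρ V Vk b' := by
  classical
  obtain ⟨h1, h2, h3, h4, h5, h6⟩ := hb
  let e : ι ≃ Fin (Fintype.card ι) := Fintype.equivFin ι
  refine ⟨Fintype.card ι, fun p => b (e.symm p), fun p => h1 _, fun p σ => h2 _ σ,
    h3.comp _ e.symm.injective, ?_, h5.comp _ e.symm.injective, ?_⟩
  · rw [← h4]
    congr 1
    exact (EquivLike.range_comp (fun p => red (b p)) e.symm)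
  · rw [← h6]
    congr 1
    exact (EquivLike.range_comp (fun p => ((b p : O) : F)) e.symm)

/-- **`hbas` of `tte_model` at one level** from points in general position. -/
theorem ttb_hbas (h : TtbRed A O red) (V : Submodule K F)
    (Vk : Submodule (ResidueField A) Rk) (hin : ∀ x : O, ((x : O) : F) ∈ V → red x ∈ Vk)
    {ι : Type*} [Fintype ι] [DecidableEq ι] (P : ι → Place K F)
    (evk : ι → Vk →ₗ[ResidueField A] ResidueField A) [FiniteDimensional K V]
    (hcard : Fintype.card ι = finrank K V) (hval : TtbVal red V Vk hin P evk)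
    (hgen : ∀ c : Vk, (∀ i, evk i c = 0) → c = 0) (ρ : G →* SemilinearAut K F)
    (hPfix : ∀ (σ : G) i, ρ σ • P i = P i) (hVfix : ∀ (σ : G), ∀ x ∈ V, ρ σ • x ∈ V) :
    ∃ (n : ℕ) (b : Fin n → O), TteBasis red ρ V Vk b := by
  obtain ⟨b, hb⟩ := ttb_basis h V Vk hin P evk hcard hval hgen ρ hPfix hVfix
  exact ttb_level_fin (b := b) hb

variable {F₁ F₂ : Type*} [Field F₁] [Field F₂] [Algebra (ResidueField A) F₁]
  [Algebra (ResidueField A) F₂] {red' : O →+* F₁ × F₂}

/-- **the two fibres of the engine from points in general position** : helper13's `tte_model`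
with `hbas` discharged level by level by `ttb_basis`. -/
theorem ttb_model_pts_fin (h : TtbRed A O red') (ρ : G →* SemilinearAut K F) {g g₁ g₂ : ℕ}
    (RR : V27RR K F g) (hdeg : ∀ P : Place K F, P.deg = 1)
    [Infinite K] (RR₁ : V27RR (ResidueField A) F₁ g₁) (RR₂ : V27RR (ResidueField A) F₂ g₂)
    [Infinite (ResidueField A)]
    (hdeg₁ : ∀ v : Place (ResidueField A) F₁, v.deg = 1)
    (hdeg₂ : ∀ v : Place (ResidueField A) F₂, v.deg = 1)
    {S : Type*} [Fintype S] (ν₁ : S → Place (ResidueField A) F₁)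
    (ν₂ : S → Place (ResidueField A) F₂) (hν₁ : Function.Injective ν₁)
    (hν₂ : Function.Injective ν₂)
    (dd : Divisor K F) (hdd : 5 * (g : ℤ) ≤ Divisor.degree dd)
    (hddfix : ∀ σ : G, ρ σ • dd = dd)
    (dd₁ : Divisor (ResidueField A) F₁) (dd₂ : Divisor (ResidueField A) F₂)
    (hdd₁ : ∀ s, dd₁ (ν₁ s) = 0) (hdd₂ : ∀ s, dd₂ (ν₂ s) = 0)
    (hin : ∀ i, ∀ x : O, ((x : O) : F) ∈ riemannRochSpace (i • dd) →
      red' x ∈ ttnkL ν₁ ν₂ (i • dd₁) (i • dd₂))
    {ι : ℕ → Type} [∀ i, Fintype (ι i)] [∀ i, DecidableEq (ι i)]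
    (P : ∀ i, ι i → Place K F)
    (evk : ∀ i, ι i → ttnkL ν₁ ν₂ (i • dd₁) (i • dd₂) →ₗ[ResidueField A] ResidueField A)
    (hcard : ∀ i, 1 ≤ i → i ≤ 5 →
      Fintype.card (ι i) = finrank K (riemannRochSpace (i • dd)))
    (hval : ∀ i, 1 ≤ i → i ≤ 5 →
      TtbVal red' (riemannRochSpace (i • dd)) (ttnkL ν₁ ν₂ (i • dd₁) (i • dd₂)) (hin i) (P i)
        (evk i))
    (hgen : ∀ i, 1 ≤ i → i ≤ 5 →
      ∀ c : ttnkL ν₁ ν₂ (i • dd₁) (i • dd₂), (∀ p, evk i p c = 0) → c = 0)
    (hPfix : ∀ i, 1 ≤ i → i ≤ 5 → ∀ (σ : G) p, ρ σ • P i p = P i p)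
    {W : Type*} [CommRing W] [Algebra W ↥A]
    (hW : ∀ a : K, a ∈ ttbFix A ρ → ∃ w : W, ((algebraMap W ↥A w : ↥A) : K) = a) :
    ∃ (n : ℕ → ℕ) (b : ∀ i, Fin (n i) → O)
      (cW : ∀ i j k : ℕ, Fin (n i) → Fin (n j) → Fin (n k) → W)
      (fibK : FffmFib (fun i => Fin (n i)) K F g
        (fun i j k p q s => ((algebraMap W ↥A (cW i j k p q s) : ↥A) : K)))
      (fibk : TtnkFib (fun i => Fin (n i)) (ResidueField A) F₁ F₂ g₁ g₂ S
        (fun i j k p q s => residue ↥A (algebraMap W ↥A (cW i j k p q s)))),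
      fibK.dd = dd ∧ fibk.dd₁ = dd₁ ∧ fibk.dd₂ = dd₂ ∧ fibk.ν₁ = ν₁ ∧ fibk.ν₂ = ν₂ ∧
      (∀ i, fibK.b i = fun p => ((b i p : O) : F)) ∧
      (∀ i, fibk.coord.b i = fun p => red' (b i p)) ∧
      ∀ i, 1 ≤ i → i ≤ 5 →
        TteBasis red' ρ (riemannRochSpace (i • dd)) (ttnkL ν₁ ν₂ (i • dd₁) (i • dd₂)) (b i) := by
  have hVfix : ∀ (i : ℕ) (σ : G), ∀ x ∈ riemannRochSpace (i • dd),
      ρ σ • x ∈ riemannRochSpace (i • dd) := by
    intro i σ x hx
    exact ffin_rrSpace_smul (ρ σ) (by rw [smul_comm, hddfix σ]) hx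
  refine tte_model h RR hdeg RR₁ RR₂ hdeg₁ hdeg₂ ν₁ ν₂ hν₁ hν₂ dd hdd dd₁ dd₂ hdd₁ hdd₂ ?_ hW
  intro i h1 h5
  haveI : FiniteDimensional K (riemannRochSpace (i • dd)) := RR.finL _
  exact ttb_hbas h (riemannRochSpace (i • dd)) (ttnkL ν₁ ν₂ (i • dd₁) (i • dd₂)) (hin i) (P i)
    (evk i) (hcard i h1 h5) (hval i h1 h5) (hgen i h1 h5) ρ (hPfix i h1 h5) (hVfix i)

end Fermat.Agent.TT
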