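import Mathlib
import Fermat.Agent.TT.B2.Pts
import Fermat.Agent.TT.Nodal.Kill

/-!
# Program TT (S33), abstract two-valuation integral layer, part 7: reduced bases on the nodal fibre

Owner: helper26.  Namespace `Fermat.Agent.TT`, prefix `ttb`.

The hypotheses of `ttb_basis` for `Rk = F₁ × F₂`, `Vk = ttnkL ν₁ ν₂ A₁ A₂` are discharged by
helper28's general-position points (`ttng_kill_nodal`, TT/Nodal/Kill.lean).  What remains for the
two-valuation layer, per space `V` (`= L(X)` on the generic fibre):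

* (R-in)  `hin  : ∀ x : O, x ∈ V → red x ∈ ttnkL ν₁ ν₂ A₁ A₂`;
* (DIM)   `hdim : finrank k (ttnkL ν₁ ν₂ A₁ A₂) ≤ finrank K V` (Riemann-Roch on both fibres and the
  genus identity);
* (LIFT)  `hlift₁` : every closed point `Q` of the first component, off a finite set `T₁`, off the
  nodes and off the support of `A₁`, has a `G`-fixed place `P` of the generic fibre above it with
  value compatibility on `V ∩ O` : `x(P) = α ∈ A` and `(red x).1 (Q) = ᾱ`; `hlift₂` likewise.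

* `ttb_hbas_nodal`  : `∃ n b, TteBasis red ρ V (ttnkL ν₁ ν₂ A₁ A₂) b` from (R-in), (DIM), (LIFT);
* `ttb_model_nodal` : helper13's `tte_model` (both fibres of the engine) from (R-in), (DIM), (LIFT)
  at the levels `i = 1..5`.
-/

set_option autoImplicit false
set_option linter.unusedSectionVars false
set_option linter.unusedVariables false
set_option linter.style.haveILetI false

noncomputable section

namespace Fermat.Agent.TT

open AlgebraicCurve IsLocalRing Module Fermat.Agent.G Fermat.Agent.FF Fermat.Agent.V.RR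

variable {K : Type*} [Field K] {A : ValuationSubring K}
variable {F : Type*} [Field F] [Algebra K F]
variable {F₁ F₂ : Type*} [Field F₁] [Field F₂] [Algebra (ResidueField A) F₁]
  [Algebra (ResidueField A) F₂]
variable {O : Subring F} {red : O →+* F₁ × F₂} {G : Type*} [Group G]

/-- the lifting hypothesis (LIFT) on the first component: closed points off `T₁`, off the nodes and
off the support of `A₁` have `G`-fixed places above them with value compatibility on `V ∩ O`. -/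
def TtbLift₁ (red : O →+* F₁ × F₂) (ρ : G →* SemilinearAut K F) (V : Submodule K F)
    {S : Type*} (ν₁ : S → Place (ResidueField A) F₁) (A₁ : Divisor (ResidueField A) F₁)
    (T₁ : Finset (Place (ResidueField A) F₁)) : Prop :=
  ∀ Q : Place (ResidueField A) F₁, Q ∉ T₁ → (∀ s, Q ≠ ν₁ s) → A₁ Q = 0 →
    ∃ P : Place K F, (∀ σ : G, ρ σ • P = P) ∧
      ∀ x : O, ((x : O) : F) ∈ V → ∃ α : A, GrdVal P ((x : O) : F) (α : K) ∧
        GrdVal Q (red x).1 (residue A α)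

/-- the lifting hypothesis (LIFT) on the second component. -/
def TtbLift₂ (red : O →+* F₁ × F₂) (ρ : G →* SemilinearAut K F) (V : Submodule K F)
    {S : Type*} (ν₂ : S → Place (ResidueField A) F₂) (A₂ : Divisor (ResidueField A) F₂)
    (T₂ : Finset (Place (ResidueField A) F₂)) : Prop :=
  ∀ Q : Place (ResidueField A) F₂, Q ∉ T₂ → (∀ s, Q ≠ ν₂ s) → A₂ Q = 0 →
    ∃ P : Place K F, (∀ σ : G, ρ σ • P = P) ∧
      ∀ x : O, ((x : O) : F) ∈ V → ∃ α : A, GrdVal P ((x : O) : F) (α : K) ∧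
        GrdVal Q (red x).2 (residue A α)

/-- **the reduced basis on the nodal fibre** from (R-in), (DIM), (LIFT). -/
theorem ttb_hbas_nodal (h : TtbRed A O red) (ρ : G →* SemilinearAut K F) {g₁ g₂ : ℕ}
    (RR₁ : V27RR (ResidueField A) F₁ g₁) (RR₂ : V27RR (ResidueField A) F₂ g₂)
    [Infinite (ResidueField A)]
    (hdeg₁ : ∀ v : Place (ResidueField A) F₁, v.deg = 1)
    (hdeg₂ : ∀ v : Place (ResidueField A) F₂, v.deg = 1)
    {S : Type*} [Fintype S] (ν₁ : S → Place (ResidueField A) F₁)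
    (ν₂ : S → Place (ResidueField A) F₂)
    (V : Submodule K F) [FiniteDimensional K V]
    (hVfix : ∀ (σ : G), ∀ x ∈ V, ρ σ • x ∈ V)
    (A₁ : Divisor (ResidueField A) F₁) (A₂ : Divisor (ResidueField A) F₂)
    (hin : ∀ x : O, ((x : O) : F) ∈ V → red x ∈ ttnkL ν₁ ν₂ A₁ A₂)
    (hdim : finrank (ResidueField A) (ttnkL ν₁ ν₂ A₁ A₂) ≤ finrank K V)
    (T₁ : Finset (Place (ResidueField A) F₁)) (T₂ : Finset (Place (ResidueField A) F₂))
    (hlift₁ : TtbLift₁ red ρ V ν₁ A₁ T₁) (hlift₂ : TtbLift₂ red ρ V ν₂ A₂ T₂) :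
    ∃ (n : ℕ) (b : Fin n → O), TteBasis red ρ V (ttnkL ν₁ ν₂ A₁ A₂) b := by
  classical
  obtain ⟨n₁, n₂, hsum, pts₁, pts₂, hA₁, hA₂, -, -, hT₁, hT₂, hν₁, hν₂, hkill⟩ :=
    ttng_kill_nodal ν₁ ν₂ RR₁ RR₂ hdeg₁ hdeg₂ A₁ A₂ T₁ T₂ (finrank K V) hdim
  choose P₁ hP₁fix hP₁val using fun j => hlift₁ (pts₁ j) (hT₁ j) (hν₁ j) (hA₁ j)
  choose P₂ hP₂fix hP₂val using fun j => hlift₂ (pts₂ j) (hT₂ j) (hν₂ j) (hA₂ j)
  refine ttb_hbas h V (ttnkL ν₁ ν₂ A₁ A₂) hin (Sum.elim P₁ P₂)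
    (ttngEvk hdeg₁ hdeg₂ (ttng_L_le ν₁ ν₂ A₁ A₂) pts₁ pts₂ hA₁ hA₂) ?_ ?_ hkill ρ ?_ hVfix
  · rw [ttng_card_sum, hsum]
  · intro x hx i
    cases i with
    | inl j =>
      obtain ⟨α, hα, hαk⟩ := hP₁val j x hx
      exact ⟨α, hα, ttngEvk_inl_eq hdeg₁ hdeg₂ (ttng_L_le ν₁ ν₂ A₁ A₂) pts₁ pts₂ hA₁ hA₂
        ⟨red x, hin x hx⟩ j hαk⟩
    | inr j =>
      obtain ⟨α, hα, hαk⟩ := hP₂val j x hx
      exact ⟨α, hα, ttngEvk_inr_eq hdeg₁ hdeg₂ (ttng_L_le ν₁ ν₂ A₁ A₂) pts₁ pts₂ hA₁ hA₂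
        ⟨red x, hin x hx⟩ j hαk⟩
  · intro σ i
    cases i with
    | inl j => exact hP₁fix j σ
    | inr j => exact hP₂fix j σ

/-- **the two fibres of the engine from (R-in), (DIM), (LIFT)** at the levels `1..5`. -/
theorem ttb_model_nodal (h : TtbRed A O red) (ρ : G →* SemilinearAut K F) {g g₁ g₂ : ℕ}
    (RR : V27RR K F g) (hdeg : ∀ P : Place K F, P.deg = 1)
    [Infinite K] (RR₁ : V27RR (ResidueField A) F₁ g₁) (RR₂ : V27RR (ResidueField A) F₂ g₂)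
    [Infinite (ResidueField A)]
    (hdeg₁ : ∀ v : Place (ResidueField A) F₁, v.deg = 1)
    (hdeg₂ : ∀ v : Place (ResidueField A) F₂, v.deg = 1)
    {S : Type*} [Fintype S] (ν₁ : S → Place (ResidueField A) F₁)
    (ν₂ : S → Place (ResidueField A) F₂) (hν₁ : Function.Injective ν₁)
    (hν₂ : Function.Injective ν₂)
    (dd : Divisor K F) (hdd : 5 * (g : ℤ) ≤ Divisor.degree dd)
    (hddfix : ∀ σ : G, ρ σ • dd = dd)
    (dd₁ : Divisor (ResidueField A) F₁) (dd₂ : Divisor (ResidueField A) F₂)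
    (hdd₁ : ∀ s, dd₁ (ν₁ s) = 0) (hdd₂ : ∀ s, dd₂ (ν₂ s) = 0)
    (hin : ∀ i, 1 ≤ i → i ≤ 5 → ∀ x : O, ((x : O) : F) ∈ riemannRochSpace (i • dd) →
      red x ∈ ttnkL ν₁ ν₂ (i • dd₁) (i • dd₂))
    (hdim : ∀ i, 1 ≤ i → i ≤ 5 →
      finrank (ResidueField A) (ttnkL ν₁ ν₂ (i • dd₁) (i • dd₂)) ≤
        finrank K (riemannRochSpace (i • dd)))
    (T₁ : Finset (Place (ResidueField A) F₁)) (T₂ : Finset (Place (ResidueField A) F₂))
    (hlift₁ : ∀ i, 1 ≤ i → i ≤ 5 →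
      TtbLift₁ red ρ (riemannRochSpace (i • dd)) ν₁ (i • dd₁) T₁)
    (hlift₂ : ∀ i, 1 ≤ i → i ≤ 5 →
      TtbLift₂ red ρ (riemannRochSpace (i • dd)) ν₂ (i • dd₂) T₂)
    {W : Type*} [CommRing W] [Algebra W ↥A]
    (hW : ∀ a : K, a ∈ ttbFix A ρ → ∃ w : W, ((algebraMap W ↥A w : ↥A) : K) = a) :
    ∃ (n : ℕ → ℕ) (b : ∀ i, Fin (n i) → O)
      (cW : ∀ i j k : ℕ, Fin (n i) → Fin (n j) → Fin (n k) → W)
      (fibK : FffmFib (fun i => Fin (n i)) K F g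
        (fun i j k p q s => ((algebraMap W ↥A (cW i j k p q s) : ↥A) : K)))
      (fibk : TtnkFib (fun i => Fin (n i)) (ResidueField A) F₁ F₂ g₁ g₂ S
        (fun i j k p q s => residue ↥A (algebraMap W ↥A (cW i j k p q s)))),
      fibK.dd = dd ∧ fibk.dd₁ = dd₁ ∧ fibk.dd₂ = dd₂ ∧ fibk.ν₁ = ν₁ ∧ fibk.ν₂ = ν₂ ∧
      (∀ i, fibK.b i = fun p => ((b i p : O) : F)) ∧
      (∀ i, fibk.coord.b i = fun p => red (b i p)) ∧
      ∀ i, 1 ≤ i → i ≤ 5 →
        TteBasis red ρ (riemannRochSpace (i • dd)) (ttnkL ν₁ ν₂ (i • dd₁) (i • dd₂)) (b i) := by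
  have hVfix : ∀ (i : ℕ) (σ : G), ∀ x ∈ riemannRochSpace (i • dd),
      ρ σ • x ∈ riemannRochSpace (i • dd) := by
    intro i σ x hx
    exact ffin_rrSpace_smul (ρ σ) (by rw [smul_comm, hddfix σ]) hx
  refine tte_model h RR hdeg RR₁ RR₂ hdeg₁ hdeg₂ ν₁ ν₂ hν₁ hν₂ dd hdd dd₁ dd₂ hdd₁ hdd₂ ?_ hW
  intro i h1 h5
  haveI : FiniteDimensional K (riemannRochSpace (i • dd)) := RR.finL _
  exact ttb_hbas_nodal h ρ RR₁ RR₂ hdeg₁ hdeg₂ ν₁ ν₂ (riemannRochSpace (i • dd)) (hVfix i)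
    (i • dd₁) (i • dd₂) (hin i h1 h5) (hdim i h1 h5) T₁ T₂ (hlift₁ i h1 h5) (hlift₂ i h1 h5)

end Fermat.Agent.TT
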